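import Mathlib.NumberTheory.NumberField.Basic
import Mathlib.NumberTheory.RamificationInertia.Galois
import Mathlib.RingTheory.Frobenius
import Mathlib.FieldTheory.Galois.IsGaloisGroup
import Fermat.Agent.Lib.ZetaPrimesDeg

/-!
# Item 61 (Frobenius density, existence form): interfaces

Coordinator: helper84.  Plan: `NOTES/plan/FrobDensity.md`.

`L/ℚ` finite Galois, `G = Gal(L/ℚ)`.  For a prime `w` of `𝓞 L` with trivial inertia group the
Frobenius `σ_w ∈ G` is unique, and `D_w = ⟨σ_w⟩` has order `f_w`.  For a subgroup `H ≤ G` with fixed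
field `K = L^H` the map `w ↦ w ∩ 𝓞 K` sends `{w unramified, σ_w ∈ H}` onto the unramified primes of
`K` of absolute degree one, with fibres of size `|H| / f_w`.  Hence
`∑_{σ_w ∈ H} f_w p_w^{-s} = |H| ∑_{v deg one} N(v)^{-s} = |H| log (1/(s-1)) + O(1)`, and the abstract
counting lemma (`H31.stmt_Count`) gives infinitely many `w` with `⟨σ_w⟩ = ⟨g⟩`.
-/

namespace Fermat.Agent.Lib.FrobDensity

open NumberField IsDedekindDomain Filter Topology Ideal
open scoped Pointwise

section Defs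

variable (L : Type) [Field L] [NumberField L]

/-- `w` is unramified over `ℚ`: its inertia group in `Gal(L/ℚ)` is trivial. -/
def Unram (w : HeightOneSpectrum (𝓞 L)) : Prop :=
  w.asIdeal.inertia (L ≃ₐ[ℚ] L) = ⊥

/-- The order of the decomposition group of `w` in `Gal(L/ℚ)`. -/
noncomputable def decompCard (w : HeightOneSpectrum (𝓞 L)) : ℕ :=
  Nat.card (MulAction.stabilizer (L ≃ₐ[ℚ] L) w.asIdeal)

/-- The fixed field of a subgroup `H` of `Gal(L/ℚ)` (in the form for which Mathlib provides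
`IsGaloisGroup H (fixK L H) L`). -/
abbrev fixK (H : Subgroup (L ≃ₐ[ℚ] L)) : IntermediateField ℚ L :=
  FixedPoints.intermediateField H

/-- The prime of an intermediate field `K` below a prime `w` of `L`. -/
noncomputable def underK (K : IntermediateField ℚ L) (w : HeightOneSpectrum (𝓞 L)) :
    HeightOneSpectrum (𝓞 K) where
  asIdeal := w.asIdeal.under (𝓞 K)
  isPrime := Ideal.IsPrime.under (𝓞 K) w.asIdeal
  ne_bot := Ideal.under_ne_bot (𝓞 K) w.ne_bot

/-- The unramified primes of `L` with a Frobenius element in `H`. -/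
def frobSet (H : Subgroup (L ≃ₐ[ℚ] L)) : Set (HeightOneSpectrum (𝓞 L)) :=
  {w | Unram L w ∧ ∃ σ ∈ H, IsArithFrobAt ℤ σ w.asIdeal}

/-- The primes of `K` lying under a ramified prime of `L`. -/
def badSet (K : IntermediateField ℚ L) : Set (HeightOneSpectrum (𝓞 K)) :=
  {v | ∃ w, underK L K w = v ∧ ¬ Unram L w}

/-- The weight `f_w * p_w ^ (-s)` of a prime `w` of `L`. -/
noncomputable def wt (s : ℝ) (w : HeightOneSpectrum (𝓞 L)) : ℝ :=
  (decompCard L w : ℝ) * (ZetaPrimes.ratPrime L w : ℝ) ^ (-s)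

end Defs

/-- **RamFinite**: only finitely many primes of `L` are ramified over `ℚ`. -/
def Stmt_RamFinite : Prop :=
  ∀ (L : Type) [Field L] [NumberField L] [IsGalois ℚ L],
    {w : HeightOneSpectrum (𝓞 L) | ¬ Unram L w}.Finite

/-- **Split**: for an unramified prime `w` with Frobenius `σ`: `σ ∈ H` iff the prime of `L^H` below
`w` has absolute degree one. -/
def Stmt_Split : Prop :=
  ∀ (L : Type) [Field L] [NumberField L] [IsGalois ℚ L] (H : Subgroup (L ≃ₐ[ℚ] L))
    (w : HeightOneSpectrum (𝓞 L)) (σ : L ≃ₐ[ℚ] L), Unram L w → IsArithFrobAt ℤ σ w.asIdeal →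
    (σ ∈ H ↔ (absNorm (underK L (fixK L H) w).asIdeal).Prime)

/-- **NormUnder**: if the prime of `K` below `w` has prime norm, this norm is the rational prime
below `w`. -/
def Stmt_NormUnder : Prop :=
  ∀ (L : Type) [Field L] [NumberField L] (K : IntermediateField ℚ L)
    (w : HeightOneSpectrum (𝓞 L)), (absNorm (underK L K w).asIdeal).Prime →
    absNorm (underK L K w).asIdeal = ZetaPrimes.ratPrime L w

/-- **FibreCard**: over an unramified prime `v` of `K = L^H` of absolute degree one, the primes of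
`L` form a finite set `F` with `∑_{w ∈ F} |D_w| = |H|`. -/
def Stmt_FibreCard : Prop :=
  ∀ (L : Type) [Field L] [NumberField L] [IsGalois ℚ L] (H : Subgroup (L ≃ₐ[ℚ] L))
    (v : HeightOneSpectrum (𝓞 (fixK L H))),
    (absNorm v.asIdeal).Prime → v ∉ badSet L (fixK L H) →
    ∃ F : Finset (HeightOneSpectrum (𝓞 L)),
      (∀ w, w ∈ F ↔ underK L (fixK L H) w = v) ∧ ∑ w ∈ F, decompCard L w = Nat.card H

/-- **FrobSum** (number field instance of the hypothesis of the counting lemma). -/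
def Stmt_FrobSum : Prop :=
  ∀ (L : Type) [Field L] [NumberField L] [IsGalois ℚ L] (H : Subgroup (L ≃ₐ[ℚ] L)),
    ∃ B : ℝ, ∀ᶠ s in 𝓝[>] (1 : ℝ),
      |∑' w : frobSet L H, wt L s w - (Nat.card H : ℝ) * Real.log (1 / (s - 1))| ≤ B

/-- **Frobenius density theorem, existence form, number field version** (the deliverable of
item 61; shape fixed with helper97, who proves the bridge to `ValuationSubring ℚ̄`). -/
def Stmt_FD_NF : Prop :=
  ∀ (L : Type) [Field L] [NumberField L] [IsGalois ℚ L] (g : L ≃ₐ[ℚ] L) (S : Finset ℕ),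
    ∃ (Q : Ideal (𝓞 L)) (φ : L ≃ₐ[ℚ] L) (ℓ : ℕ), Q.IsPrime ∧ ℓ.Prime ∧ ℓ ∉ S ∧ (ℓ : 𝓞 L) ∈ Q ∧
      Q.inertia (L ≃ₐ[ℚ] L) = ⊥ ∧ IsArithFrobAt ℤ φ Q ∧ Subgroup.zpowers φ = Subgroup.zpowers g

end Fermat.Agent.Lib.FrobDensity
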