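import Mathlib.RingTheory.Frobenius
import Mathlib.NumberTheory.NumberField.Basic
import Mathlib.NumberTheory.RamificationInertia.Galois
import Mathlib.RingTheory.Ideal.Norm.AbsNorm
import Mathlib.FieldTheory.Finite.Basic
import Mathlib.FieldTheory.Galois.Basic
import Mathlib.LinearAlgebra.FreeModule.IdealQuotient
import Mathlib.NumberTheory.NumberField.Ideal.Basic

/-!
# Item 61 (Frobenius density), package FD-SPLIT (helper12)

`frob_fixes_iff`: `L/M` Galois, `M ⊆ M' ⊆ L` number fields, `Q` a nonzero prime of `𝓞 L` with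
trivial inertia group in `Gal(L/M)` and Frobenius `σ ∈ Gal(L/M)`.  Then
`σ` fixes `M'` pointwise  ↔  `N(Q ∩ M') = N(Q ∩ M)` (residue degree one).

`frob_mem_iff`: the same for `M' = fixedField H`: `σ ∈ H ↔ N(Q ∩ L^H) = N(Q ∩ M)`.
-/

set_option autoImplicit false

namespace Fermat.Agent.Lib.FrobDensity.H12

open NumberField
open scoped Pointwise

section Basic

variable {K M : Type*} [Field K] [NumberField K] [Field M] [NumberField M] [Algebra K M]

omit [NumberField M] in
/-- Unfolded form of the Frobenius congruence, with the exponent written as an absolute norm. -/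
lemma isArithFrobAt_iff {G : Type*} [Group G] [MulSemiringAction G (𝓞 M)]
    [SMulCommClass G (𝓞 K) (𝓞 M)] (Q : Ideal (𝓞 M)) (τ : G) :
    IsArithFrobAt (𝓞 K) τ Q ↔
      ∀ x : 𝓞 M, τ • x - x ^ Ideal.absNorm (Q.under (𝓞 K)) ∈ Q := by
  rw [Ideal.absNorm_apply, Submodule.cardQuot_apply]
  rfl

/-- A nonzero prime of `𝓞 M` has a Frobenius element in `Gal(M/K)`. -/
lemma exists_frob [IsGalois K M] (Q : Ideal (𝓞 M)) [Q.IsPrime] (hQ : Q ≠ ⊥) :
    ∃ τ : M ≃ₐ[K] M, IsArithFrobAt (𝓞 K) τ Q := by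
  have : Finite (𝓞 M ⧸ Q) := Ideal.finiteQuotientOfFreeOfNeBot Q hQ
  exact IsArithFrobAt.exists_of_isInvariant (𝓞 K) (M ≃ₐ[K] M) Q

/-- Uniqueness of the Frobenius element when the inertia group is trivial. -/
lemma frob_unique [IsGalois K M] (Q : Ideal (𝓞 M)) (hunr : Q.inertia (M ≃ₐ[K] M) = ⊥)
    {τ τ' : M ≃ₐ[K] M}
    (h : IsArithFrobAt (𝓞 K) τ Q) (h' : IsArithFrobAt (𝓞 K) τ' Q) : τ = τ' := by
  have h1 := IsArithFrobAt.mul_inv_mem_inertia h h'
  rw [hunr, Subgroup.mem_bot] at h1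
  exact mul_inv_eq_one.mp h1

/-- In a finite field in which every element satisfies `x ^ q = x` (`1 < q`), there are at most
`q` elements. -/
lemma card_le_of_forall_pow_eq {F : Type*} [Field F] [Finite F] {q : ℕ} (hq : 1 < q)
    (h : ∀ x : F, x ^ q = x) : Nat.card F ≤ q := by
  classical
  have := Fintype.ofFinite F
  have hne : (Polynomial.X ^ q - Polynomial.X : Polynomial F) ≠ 0 :=
    FiniteField.X_pow_card_sub_X_ne_zero F hq
  have hdeg : (Polynomial.X ^ q - Polynomial.X : Polynomial F).natDegree = q :=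
    FiniteField.X_pow_card_sub_X_natDegree_eq F hq
  have hsub : (Finset.univ : Finset F) ⊆
      (Polynomial.X ^ q - Polynomial.X : Polynomial F).roots.toFinset := by
    intro x _
    rw [Multiset.mem_toFinset, Polynomial.mem_roots hne]
    simp [h x]
  calc Nat.card F = (Finset.univ : Finset F).card := by
        rw [Nat.card_eq_fintype_card, Finset.card_univ]
    _ ≤ (Polynomial.X ^ q - Polynomial.X : Polynomial F).roots.toFinset.card :=
        Finset.card_le_card hsub
    _ ≤ Multiset.card (Polynomial.X ^ q - Polynomial.X : Polynomial F).roots :=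
        Multiset.toFinset_card_le _
    _ ≤ (Polynomial.X ^ q - Polynomial.X : Polynomial F).natDegree :=
        Polynomial.card_roots' _
    _ = q := hdeg

omit [Field M] [NumberField M] [Algebra K M] in
lemma one_lt_absNorm_of_isPrime (P : Ideal (𝓞 K)) [hP : P.IsPrime]
    (hP0 : P ≠ ⊥) : 1 < Ideal.absNorm P := by
  have h0 : Ideal.absNorm P ≠ 0 := by
    rw [Ne, Ideal.absNorm_eq_zero_iff]; exact hP0
  have h1 : Ideal.absNorm P ≠ 1 := by
    rw [Ne, Ideal.absNorm_eq_one_iff]; exact hP.ne_top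
  omega

/-- If `x ^ N𝔭 ≡ x` modulo `Q` for all `x`, then `Q` has the same norm as the prime below. -/
lemma absNorm_eq_of_pow_congr (Q : Ideal (𝓞 M)) [hQp : Q.IsPrime] (hQ : Q ≠ ⊥)
    (h : ∀ x : 𝓞 M, x - x ^ Ideal.absNorm (Q.under (𝓞 K)) ∈ Q) :
    Ideal.absNorm Q = Ideal.absNorm (Q.under (𝓞 K)) := by
  have hmax : Q.IsMaximal := Ideal.isMaximal_of_isPrime_of_ne_bot Q hQ
  let _ := Ideal.Quotient.field Q
  have hfin : Finite (𝓞 M ⧸ Q) := Ideal.finiteQuotientOfFreeOfNeBot Q hQ
  have hu0 : Q.under (𝓞 K) ≠ ⊥ := Ideal.IsIntegral.comap_ne_bot (𝓞 K) hQ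
  have hq : 1 < Ideal.absNorm (Q.under (𝓞 K)) := one_lt_absNorm_of_isPrime _ hu0
  have hpow : ∀ x : 𝓞 M ⧸ Q, x ^ Ideal.absNorm (Q.under (𝓞 K)) = x := by
    intro x
    obtain ⟨a, rfl⟩ := Ideal.Quotient.mk_surjective x
    rw [← map_pow, eq_comm]
    exact (Ideal.Quotient.eq).mpr (h a)
  have h1 : Ideal.absNorm Q ≤ Ideal.absNorm (Q.under (𝓞 K)) := by
    rw [Ideal.absNorm_apply Q, Submodule.cardQuot_apply]
    exact card_le_of_forall_pow_eq hq hpow
  have h2 : Ideal.absNorm (Q.under (𝓞 K)) ≤ Ideal.absNorm Q := by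
    rw [Ideal.absNorm_apply Q, Submodule.cardQuot_apply, Ideal.absNorm_apply,
      Submodule.cardQuot_apply]
    exact Nat.card_le_card_of_injective _
      (Ideal.algebraMap_quotient_injective (R := 𝓞 K) (I := Q))
  exact le_antisymm h1 h2

end Basic

section Tower

variable {M M' L : Type*} [Field M] [NumberField M] [Field M'] [NumberField M']
  [Field L] [NumberField L] [Algebra M M'] [Algebra M' L] [Algebra M L] [IsScalarTower M M' L]

/-- **Splitting criterion.**  `L/M` Galois, `M ⊆ M' ⊆ L`, `Q` a prime of `L` unramified over `M`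
with Frobenius `σ ∈ Gal(L/M)`.  Then `σ` fixes `M'` iff the prime of `M'` under `Q` has residue
degree one over `M`. -/
theorem frob_fixes_iff [IsGalois M L] (Q : Ideal (𝓞 L)) [hQp : Q.IsPrime] (hQ : Q ≠ ⊥)
    (hunr : Q.inertia (L ≃ₐ[M] L) = ⊥) (σ : L ≃ₐ[M] L) (hσ : IsArithFrobAt (𝓞 M) σ Q) :
    (∀ x : M', σ (algebraMap M' L x) = algebraMap M' L x) ↔
      Ideal.absNorm (Q.under (𝓞 M')) = Ideal.absNorm (Q.under (𝓞 M)) := by
  have hq0 : Q.under (𝓞 M') ≠ ⊥ := Ideal.IsIntegral.comap_ne_bot (𝓞 M') hQ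
  have huu : (Q.under (𝓞 M')).under (𝓞 M) = Q.under (𝓞 M) := Ideal.under_under Q
  constructor
  · intro hfix
    rw [← huu]
    apply absNorm_eq_of_pow_congr (K := M) (Q.under (𝓞 M')) hq0
    intro x
    rw [huu, Ideal.under_def, Ideal.mem_comap, map_sub, map_pow]
    have h1 := (isArithFrobAt_iff (K := M) Q σ).mp hσ (algebraMap (𝓞 M') (𝓞 L) x)
    have h2 : σ • (algebraMap (𝓞 M') (𝓞 L) x) = algebraMap (𝓞 M') (𝓞 L) x := by
      apply RingOfIntegers.ext
      exact hfix x
    rwa [h2] at h1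
  · intro hN
    have : IsGalois M' L := IsGalois.tower_top_of_isGalois M M' L
    obtain ⟨τ, hτ⟩ := exists_frob (K := M') Q hQ
    have hτ' : IsArithFrobAt (𝓞 M) (τ.restrictScalars M) Q := by
      rw [isArithFrobAt_iff]
      intro y
      have := (isArithFrobAt_iff (K := M') Q τ).mp hτ y
      rw [hN] at this
      exact this
    have hστ : σ = τ.restrictScalars M := frob_unique Q hunr hσ hτ'
    intro x
    rw [hστ]
    exact τ.commutes x

end Tower

section FixedField

variable {M L : Type*} [Field M] [NumberField M] [Field L] [NumberField L] [Algebra M L]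

/-- **Splitting criterion, fixed-field form.**  `σ = Frob_Q ∈ H` iff the prime of `L^H` under `Q`
has the same norm as the prime of `M` under `Q`. -/
theorem frob_mem_iff [IsGalois M L] (H : Subgroup (L ≃ₐ[M] L))
    (Q : Ideal (𝓞 L)) [hQp : Q.IsPrime] (hQ : Q ≠ ⊥)
    (hunr : Q.inertia (L ≃ₐ[M] L) = ⊥) (σ : L ≃ₐ[M] L) (hσ : IsArithFrobAt (𝓞 M) σ Q) :
    σ ∈ H ↔
      Ideal.absNorm (Q.under (𝓞 (IntermediateField.fixedField H))) =
        Ideal.absNorm (Q.under (𝓞 M)) := by
  rw [← frob_fixes_iff (M' := IntermediateField.fixedField H) Q hQ hunr σ hσ]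
  constructor
  · intro h x
    exact x.2 ⟨σ, h⟩
  · intro h
    have h1 : σ ∈ (IntermediateField.fixedField H).fixingSubgroup := by
      rw [IntermediateField.mem_fixingSubgroup_iff]
      intro x hx
      exact h ⟨x, hx⟩
    rwa [IntermediateField.fixingSubgroup_fixedField] at h1

end FixedField

end Fermat.Agent.Lib.FrobDensity.H12
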