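/-
Item 61 (Frobenius density), package B1 (helper12): `Stmt_Split` and `Stmt_NormUnder` of
`Fermat/Agent/Lib/FrobDensity/Defs.lean`, in the exact interface form.
-/
import Fermat.Agent.Lib.FrobDensity.Defs
import Fermat.Agent.Lib.FrobDensity.H12_Split

set_option autoImplicit false

namespace Fermat.Agent.Lib.FrobDensity.H12

open NumberField IsDedekindDomain Ideal
open scoped Pointwise
open Fermat.Agent.Lib.FrobDensity

section RatPrime

variable (K : Type*) [Field K] [NumberField K]

/-- A prime number whose cast lies in the prime `v` is the rational prime below `v`. -/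
lemma eq_ratPrime_of_mem (v : HeightOneSpectrum (𝓞 K)) {q : ℕ} (hq : q.Prime)
    (hmem : (q : 𝓞 K) ∈ v.asIdeal) : q = ZetaPrimes.ratPrime K v := by
  by_contra hne
  have hcop : Nat.Coprime q (ZetaPrimes.ratPrime K v) :=
    (Nat.coprime_primes hq (ZetaPrimes.ratPrime_prime K v)).mpr hne
  have h1 : ((Nat.gcd q (ZetaPrimes.ratPrime K v) : ℤ) : 𝓞 K) ∈ v.asIdeal := by
    rw [Nat.gcd_eq_gcd_ab]
    push_cast
    exact Ideal.add_mem _ (Ideal.mul_mem_right _ _ hmem)
      (Ideal.mul_mem_right _ _ (ZetaPrimes.ratPrime_mem K v))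
  rw [hcop] at h1
  simp only [Nat.cast_one, Int.cast_one] at h1
  exact v.isPrime.ne_top ((Ideal.eq_top_iff_one _).mpr h1)

/-- The cardinality of `ℤ ⧸ (v ∩ ℤ)` is the rational prime below `v`. -/
lemma card_quot_under_int (v : HeightOneSpectrum (𝓞 K)) :
    Nat.card (ℤ ⧸ v.asIdeal.under ℤ) = ZetaPrimes.ratPrime K v := by
  have h1 : Nat.card (ℤ ⧸ v.asIdeal.under ℤ) = absNorm (v.asIdeal.under ℤ) := by
    rw [Ideal.absNorm_apply, Submodule.cardQuot_apply]
  rw [h1]
  have hp : (absNorm (v.asIdeal.under ℤ)).Prime := Nat.absNorm_under_prime v.asIdeal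
  apply eq_ratPrime_of_mem K v hp
  exact Int.absNorm_under_mem v.asIdeal

end RatPrime


section NormUnder

variable (L : Type) [Field L] [NumberField L]

/-- The rational prime below `w ∩ K` is the rational prime below `w`. -/
lemma ratPrime_underK (K : IntermediateField ℚ L) (w : HeightOneSpectrum (𝓞 L)) :
    ZetaPrimes.ratPrime K (underK L K w) = ZetaPrimes.ratPrime L w := by
  apply eq_ratPrime_of_mem L w (ZetaPrimes.ratPrime_prime K _)
  have h := ZetaPrimes.ratPrime_mem K (underK L K w)
  change ((ZetaPrimes.ratPrime K (underK L K w) : ℕ) : 𝓞 K) ∈ w.asIdeal.under (𝓞 K) at h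
  rw [Ideal.under_def, Ideal.mem_comap, map_natCast] at h
  exact h

theorem stmt_NormUnder : Stmt_NormUnder := by
  intro L _ _ K w hprime
  obtain ⟨f, hf1, hf⟩ := ZetaPrimes.exists_absNorm_eq_pow K (underK L K w)
  rw [hf] at hprime ⊢
  have hf' : f = 1 := by
    by_contra hne
    exact (Nat.Prime.not_prime_pow (x := ZetaPrimes.ratPrime K (underK L K w)) (n := f)
      (by omega)) hprime
  rw [hf', pow_one, ratPrime_underK]

end NormUnder

section Split

variable (L : Type) [Field L] [NumberField L]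

/-- The Frobenius congruence over `ℤ`, with exponent the rational prime. -/
lemma isArithFrobAt_int_iff (w : HeightOneSpectrum (𝓞 L)) (σ : L ≃ₐ[ℚ] L) :
    IsArithFrobAt ℤ σ w.asIdeal ↔
      ∀ y : 𝓞 L, σ • y - y ^ ZetaPrimes.ratPrime L w ∈ w.asIdeal := by
  rw [← card_quot_under_int L w]
  rfl

theorem stmt_Split : Stmt_Split := by
  intro L _ _ _ H w σ hunr hσ
  have hσ' := (isArithFrobAt_int_iff L w σ).mp hσ
  have hwp : w.asIdeal.IsPrime := w.isPrime
  constructor
  · intro hH
    -- `σ` fixes `K = L^H`, so `x ^ ℓ ≡ x` on `𝓞 K`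
    obtain ⟨f, hf1, hf⟩ := ZetaPrimes.exists_absNorm_eq_pow (fixK L H) (underK L (fixK L H) w)
    rw [ratPrime_underK] at hf
    have hle : absNorm (underK L (fixK L H) w).asIdeal ≤ ZetaPrimes.ratPrime L w := by
      have hmax : (underK L (fixK L H) w).asIdeal.IsMaximal :=
        (underK L (fixK L H) w).isMaximal
      let _ := Ideal.Quotient.field (underK L (fixK L H) w).asIdeal
      have hfin : Finite (𝓞 (fixK L H) ⧸ (underK L (fixK L H) w).asIdeal) :=
        Ideal.finiteQuotientOfFreeOfNeBot _ (underK L (fixK L H) w).ne_bot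
      rw [Ideal.absNorm_apply, Submodule.cardQuot_apply]
      apply card_le_of_forall_pow_eq (ZetaPrimes.ratPrime_prime L w).one_lt
      intro x
      obtain ⟨a, rfl⟩ := Ideal.Quotient.mk_surjective x
      rw [← map_pow, eq_comm]
      apply (Ideal.Quotient.eq).mpr
      change a - a ^ ZetaPrimes.ratPrime L w ∈ w.asIdeal.under (𝓞 (fixK L H))
      rw [Ideal.under_def, Ideal.mem_comap, map_sub, map_pow]
      have h1 := hσ' (algebraMap (𝓞 (fixK L H)) (𝓞 L) a)
      have h2 : σ • (algebraMap (𝓞 (fixK L H)) (𝓞 L) a) = algebraMap (𝓞 (fixK L H)) (𝓞 L) a := by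
        apply RingOfIntegers.ext
        exact (a : fixK L H).2 ⟨σ, hH⟩
      rwa [h2] at h1
    have hf' : f = 1 := by
      by_contra hne
      have h2 : 2 ≤ f := by omega
      have hp := (ZetaPrimes.ratPrime_prime L w).two_le
      have : ZetaPrimes.ratPrime L w ^ 2 ≤ ZetaPrimes.ratPrime L w ^ f :=
        Nat.pow_le_pow_right (by omega) h2
      rw [hf] at hle
      nlinarith
    rw [hf, hf', pow_one]
    exact ZetaPrimes.ratPrime_prime L w
  · intro hprime
    have hN := stmt_NormUnder L (fixK L H) w hprime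
    have hgal : IsGalois (fixK L H) L := inferInstance
    obtain ⟨τ, hτ⟩ := exists_frob (K := fixK L H) w.asIdeal w.ne_bot
    have hτ2 := (isArithFrobAt_iff (K := fixK L H) w.asIdeal τ).mp hτ
    have hτ' : IsArithFrobAt ℤ (τ.restrictScalars ℚ) w.asIdeal := by
      rw [isArithFrobAt_int_iff]
      intro y
      have := hτ2 y
      change τ • y - y ^ absNorm (underK L (fixK L H) w).asIdeal ∈ w.asIdeal at this
      rw [hN] at this
      exact this
    have h1 := IsArithFrobAt.mul_inv_mem_inertia hσ hτ'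
    rw [show w.asIdeal.inertia (L ≃ₐ[ℚ] L) = ⊥ from hunr, Subgroup.mem_bot] at h1
    have hστ : σ = τ.restrictScalars ℚ := mul_inv_eq_one.mp h1
    have h2 : σ ∈ (IntermediateField.fixedField H).fixingSubgroup := by
      rw [IntermediateField.mem_fixingSubgroup_iff]
      intro x hx
      rw [hστ]
      exact τ.commutes ⟨x, hx⟩
    rwa [IntermediateField.fixingSubgroup_fixedField] at h2

end Split

end Fermat.Agent.Lib.FrobDensity.H12
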