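import Mathlib.NumberTheory.NumberField.Basic
import Mathlib.NumberTheory.RamificationInertia.Galois
import Mathlib.RingTheory.RamificationInertia.Basic
import Mathlib.NumberTheory.RamificationInertia.Inertia
import Mathlib.RingTheory.Ideal.Quotient.HasFiniteQuotients
import Mathlib.FieldTheory.Galois.IsGaloisGroup
import Mathlib.RingTheory.IsGaloisGroup.Basic
import Fermat.Agent.Lib.FrobDensity.Defs

/-!
# Item 61 (Frobenius density), package B2: the fibre lemma `Stmt_FibreCard`
-/

namespace Fermat.Agent.Lib.FrobDensity.H84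

open NumberField IsDedekindDomain Ideal
open scoped Pointwise

variable (L : Type) [Field L] [NumberField L]

section Inst

variable [IsGalois ℚ L] (H : Subgroup (L ≃ₐ[ℚ] L))

theorem isGaloisGroup_int : IsGaloisGroup H (𝓞 (fixK L H)) (𝓞 L) :=
  IsGaloisGroup.of_isFractionRing H (𝓞 (fixK L H)) (𝓞 L) (fixK L H) L

variable {L}

omit [IsGalois ℚ L] in
/-- Trivial inertia in `G` gives trivial inertia in a subgroup. -/
lemma inertia_subgroup_eq_bot (q : Ideal (𝓞 L)) (h : q.inertia (L ≃ₐ[ℚ] L) = ⊥) :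
    q.inertia H = ⊥ := by
  rw [eq_bot_iff]
  intro σ hσ
  have h1 : (σ : L ≃ₐ[ℚ] L) ∈ q.inertia (L ≃ₐ[ℚ] L) := fun x => hσ x
  rw [h, Subgroup.mem_bot] at h1
  rw [Subgroup.mem_bot]
  exact Subtype.ext h1

/-- The ramification index over `L^H` of a prime with trivial inertia is one. -/
lemma ramificationIdx_eq_one (q : Ideal (𝓞 L)) [q.IsPrime]
    (h : q.inertia (L ≃ₐ[ℚ] L) = ⊥) : q.ramificationIdx (𝓞 (fixK L H)) = 1 := by
  have := isGaloisGroup_int L H
  have h1 := Ideal.card_inertia_eq_ramificationIdxIn (G := H) (q.under (𝓞 (fixK L H))) q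
  rw [inertia_subgroup_eq_bot H q h] at h1
  rw [← Ideal.ramificationIdxIn_eq_ramificationIdx (q.under (𝓞 (fixK L H))) q H, ← h1]
  simp

/-- The order of the decomposition group of an unramified prime is its absolute inertia degree. -/
lemma card_stabilizer_eq_inertiaDeg (q : Ideal (𝓞 L)) [q.IsPrime]
    (h : q.inertia (L ≃ₐ[ℚ] L) = ⊥) :
    Nat.card (MulAction.stabilizer (L ≃ₐ[ℚ] L) q) = q.inertiaDeg ℤ := by
  have h1 := Ideal.card_stabilizer_eq_card_inertia_mul_finrank (G := L ≃ₐ[ℚ] L) (q.under ℤ) q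
  rw [h1, h]
  simp

/-- A nonzero prime of prime absolute norm has absolute inertia degree one. -/
lemma inertiaDeg_int_eq_one {K : Type*} [Field K] [NumberField K] (v : Ideal (𝓞 K)) [hvp : v.IsPrime]
    (hv0 : v ≠ ⊥) (hv : (absNorm v).Prime) : v.inertiaDeg ℤ = 1 := by
  have hu0 : v.under ℤ ≠ ⊥ := Ideal.IsIntegral.comap_ne_bot ℤ hv0
  have hup : (v.under ℤ).IsPrime := Ideal.IsPrime.under ℤ v
  have humax : (v.under ℤ).IsMaximal := hup.isMaximal hu0
  have hvmax : v.IsMaximal := hvp.isMaximal hv0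
  have h := absNorm_eq_pow_inertiaDeg'_of_liesOver v (v.under ℤ) hup hu0
  rw [Ideal.inertiaDeg'_eq_inertiaDeg] at h
  exact ((Nat.Prime.pow_eq_iff hv).mp h.symm).2

end Inst

/-- **FibreCard** (package B2 of item 61). -/
theorem stmt_FibreCard : Stmt_FibreCard := by
  intro L _ _ _ H v hv hbad
  classical
  have hGG := isGaloisGroup_int L H
  have hvmax : v.asIdeal.IsMaximal := v.isMaximal
  have hfin : Finite (v.asIdeal.primesOver (𝓞 L)) := Algebra.QuasiFinite.finite_primesOver v.asIdeal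
  let _ : Fintype (v.asIdeal.primesOver (𝓞 L)) := Fintype.ofFinite _
  have hsum := Ideal.sum_ramification_inertia_eq_card v.asIdeal (𝓞 L) (G := H)
  have hne : ∀ q : v.asIdeal.primesOver (𝓞 L), q.1 ≠ ⊥ := by
    intro q hq
    have h1 : q.1.LiesOver v.asIdeal := q.2.2
    have h2 := Ideal.over_def q.1 v.asIdeal
    rw [hq] at h2
    apply v.ne_bot
    rw [h2]
    exact Ideal.under_bot _ _
  let φ : v.asIdeal.primesOver (𝓞 L) → HeightOneSpectrum (𝓞 L) := fun q => ⟨q.1, q.2.1, hne q⟩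
  have hφinj : Function.Injective φ := fun a b h =>
    Subtype.ext (congrArg HeightOneSpectrum.asIdeal h)
  have hφu : ∀ q, underK L (fixK L H) (φ q) = v := by
    intro q
    apply HeightOneSpectrum.ext
    have h1 : q.1.LiesOver v.asIdeal := q.2.2
    exact (Ideal.over_def q.1 v.asIdeal).symm
  refine ⟨Finset.univ.map ⟨φ, hφinj⟩, ?_, ?_⟩
  · intro w
    constructor
    · intro hw
      obtain ⟨q, -, rfl⟩ := Finset.mem_map.mp hw
      exact hφu q
    · intro hw
      refine Finset.mem_map.mpr ⟨⟨w.asIdeal, w.isPrime, ⟨?_⟩⟩, Finset.mem_univ _, ?_⟩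
      · rw [← hw]
        rfl
      · rfl
  · rw [Finset.sum_map, ← hsum]
    apply Finset.sum_congr rfl
    intro q _
    have hun : Unram L (φ q) := by
      by_contra hcon
      exact hbad ⟨φ q, hφu q, hcon⟩
    have hqp : q.1.IsPrime := q.2.1
    have hqo : q.1.LiesOver v.asIdeal := q.2.2
    rw [ramificationIdx_eq_one H q.1 hun, one_mul]
    show Nat.card (MulAction.stabilizer (L ≃ₐ[ℚ] L) q.1) = _
    rw [card_stabilizer_eq_inertiaDeg q.1 hun, Ideal.inertiaDeg_tower (R := ℤ) v.asIdeal q.1,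
      inertiaDeg_int_eq_one v.asIdeal v.ne_bot hv, one_mul]

end Fermat.Agent.Lib.FrobDensity.H84
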