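import Mathlib
import Fermat.Agent.R.Defs
import Fermat.Agent.Lib.FrobExists
import Fermat.Agent.Lib.FrobDensity.Defs

/-!
# Frobenius density: from number fields to valuation subrings of `ℚ̄` (helper97)

`Stmt_FD_NF` (in `Lib/FrobDensity/Defs.lean`) is the number field form of the Frobenius density
theorem (shared item 61):
for `L/ℚ` finite Galois, `g ∈ Gal(L/ℚ)` and a finite set `S` of primes there is a prime `Q` of `L`
over some `ℓ ∉ S`, with trivial inertia group, whose Frobenius generates the same cyclic subgroup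
as `g`.

Main result: `stmt_FD_of_NF : Stmt_FD_NF → Fermat.Agent.R.Stmt_FD`.
-/

set_option autoImplicit false

open NumberField
open scoped Pointwise

noncomputable section

namespace Fermat.Agent.Lib.FrobDensity.H97

attribute [local instance] Fermat.Agent.Lib.FrobIntegers.qbar_isAlgebraic
  Fermat.Agent.Lib.FrobIntegers.qbar_isAlgClosure Fermat.Agent.Lib.FrobIntegers.qbar_isGalois

/-- The Frobenius congruence on elements, from `IsFrobeniusAt`. -/
theorem valuation_frob_sub_pow_lt_one (A : ValuationSubring (AlgebraicClosure ℚ))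
    (σ : AlgebraicClosure ℚ ≃ₐ[ℚ] AlgebraicClosure ℚ) (ℓ : ℕ) (h : A.IsFrobeniusAt σ ℓ)
    (a : AlgebraicClosure ℚ) (ha : a ∈ A) : A.valuation (σ a - a ^ ℓ) < 1 := by
  obtain ⟨hσ, hx⟩ := h
  have h1 := hx (IsLocalRing.residue A ⟨a, ha⟩)
  rw [← IsLocalRing.ResidueField.residue_smul, ← map_pow, ← sub_eq_zero, ← map_sub,
    IsLocalRing.residue_eq_zero_iff, ← ValuationSubring.coe_mem_nonunits_iff,
    A.mem_nonunits_iff] at h1
  exact h1

section Galois

variable (L : IntermediateField ℚ (AlgebraicClosure ℚ)) [NumberField L]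

/-- A valuation subring of `ℚ̄` centred at a given nonzero prime of `𝓞 L`. -/
theorem exists_valuationSubring_center (Q : Ideal (𝓞 L)) [hQ : Q.IsPrime] (hQ0 : Q ≠ ⊥) :
    ∃ B : ValuationSubring (AlgebraicClosure ℚ),
      ∀ x : 𝓞 L, x ∈ Q ↔ B.valuation (algebraMap (𝓞 L) (AlgebraicClosure ℚ) x) < 1 := by
  have hQmax : Q.IsMaximal := hQ.isMaximal hQ0
  set f : 𝓞 L →+* AlgebraicClosure ℚ := algebraMap (𝓞 L) (AlgebraicClosure ℚ) with hf
  have hfinj : Function.Injective f := FaithfulSMul.algebraMap_injective _ _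
  set e : 𝓞 L →+* f.range := f.rangeRestrict with he
  have hesurj : Function.Surjective e := f.rangeRestrict_surjective
  have hI : Q.map e ≠ ⊤ := by
    intro h
    have h1 : (1 : f.range) ∈ Q.map e := by rw [h]; exact Submodule.mem_top
    rw [Ideal.mem_map_iff_of_surjective e hesurj] at h1
    obtain ⟨q, hq, hq1⟩ := h1
    have h2 : f q = 1 := congrArg Subtype.val hq1
    have h3 : q = 1 := hfinj (by rw [h2, map_one])
    exact hQ.ne_top ((Ideal.eq_top_iff_one Q).mpr (h3 ▸ hq))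
  obtain ⟨B, hRB, hIB⟩ := Ideal.image_subset_nonunits_valuationSubring (Q.map e) hI
  have hint : ∀ y : 𝓞 L, B.valuation (f y) ≤ 1 := by
    intro y
    rw [B.valuation_le_one_iff]
    exact hRB ⟨y, rfl⟩
  have hfwd : ∀ x : 𝓞 L, x ∈ Q → B.valuation (f x) < 1 := by
    intro x hx
    rw [← B.mem_nonunits_iff]
    exact hIB ⟨e x, Ideal.mem_map_of_mem e hx, rfl⟩
  refine ⟨B, fun x => ⟨hfwd x, fun hx => ?_⟩⟩
  by_contra hxQ
  obtain ⟨y, i, hi, hyi⟩ := hQmax.exists_inv hxQ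
  have h1 : f y * f x + f i = 1 := by rw [← map_mul, ← map_add, hyi, map_one]
  have h2 : B.valuation (f y * f x) < 1 := by
    rw [map_mul]
    calc B.valuation (f y) * B.valuation (f x) ≤ 1 * B.valuation (f x) :=
          mul_le_mul_left (hint y) _
      _ = B.valuation (f x) := one_mul _
      _ < 1 := hx
  have h3 : B.valuation (f y * f x + f i) < 1 :=
    lt_of_le_of_lt (B.valuation.map_add _ _) (max_lt h2 (hfwd i hi))
  rw [h1, map_one] at h3
  exact lt_irrefl _ h3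

omit [NumberField L] in
/-- Algebraic integers of `L` lie in every valuation subring of `ℚ̄`. -/
theorem algebraMap_mem (B : ValuationSubring (AlgebraicClosure ℚ)) (x : 𝓞 L) :
    algebraMap (𝓞 L) (AlgebraicClosure ℚ) x ∈ B := by
  rw [← B.valuation_le_one_iff]
  apply Fermat.Agent.Lib.FrobExists.valuation_le_one_of_isIntegral
  exact (RingOfIntegers.isIntegral x).map (IsScalarTower.toAlgHom ℤ (𝓞 L) (AlgebraicClosure ℚ))

omit [NumberField L] in
/-- The prime of `ℤ` under a prime `Q` of `𝓞 L` containing `ℓ` has `ℓ` elements in its residue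
field. -/
theorem card_quotient_under (Q : Ideal (𝓞 L)) [hQ : Q.IsPrime] (ℓ : ℕ) (hℓ : ℓ.Prime)
    (hℓQ : (ℓ : 𝓞 L) ∈ Q) : Nat.card (ℤ ⧸ Q.under ℤ) = ℓ := by
  have h1 : Ideal.span {(ℓ : ℤ)} ≤ Q.under ℤ := by
    rw [Ideal.span_singleton_le_iff_mem, Ideal.under, Ideal.mem_comap]
    simpa using hℓQ
  have hmax : (Ideal.span {(ℓ : ℤ)}).IsMaximal :=
    PrincipalIdealRing.isMaximal_of_irreducible
      (Nat.prime_iff_prime_int.mp hℓ).irreducible
  have hne : Q.under ℤ ≠ ⊤ := (inferInstance : (Q.under ℤ).IsPrime).ne_top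
  have h2 : Q.under ℤ = Ideal.span {(ℓ : ℤ)} := (hmax.eq_of_le hne h1).symm
  rw [h2, Nat.card_congr (Int.quotientSpanNatEquivZMod ℓ).toEquiv, Nat.card_zmod]

variable [IsGalois ℚ L]

omit [NumberField L] in
/-- Compatibility of the restriction to `L` with the inclusion `𝓞 L → ℚ̄`. -/
theorem algebraMap_restrict_smul (σ : AlgebraicClosure ℚ ≃ₐ[ℚ] AlgebraicClosure ℚ) (x : 𝓞 L) :
    algebraMap (𝓞 L) (AlgebraicClosure ℚ) ((AlgEquiv.restrictNormalHom L σ) • x) =
      σ (algebraMap (𝓞 L) (AlgebraicClosure ℚ) x) :=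
  AlgEquiv.restrictNormal_commutes σ L (x : L)

omit [NumberField L] in
/-- The restriction to `L` of a Frobenius at a valuation subring `B` of `ℚ̄` centred at `Q` is an
arithmetic Frobenius at `Q`. -/
theorem isArithFrobAt_restrict (Q : Ideal (𝓞 L)) [hQ : Q.IsPrime] (ℓ : ℕ) (hℓ : ℓ.Prime)
    (hℓQ : (ℓ : 𝓞 L) ∈ Q) (B : ValuationSubring (AlgebraicClosure ℚ))
    (hB : ∀ x : 𝓞 L, x ∈ Q ↔ B.valuation (algebraMap (𝓞 L) (AlgebraicClosure ℚ) x) < 1)
    (σ : AlgebraicClosure ℚ ≃ₐ[ℚ] AlgebraicClosure ℚ) (hσ : B.IsFrobeniusAt σ ℓ) :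
    IsArithFrobAt ℤ (AlgEquiv.restrictNormalHom L σ) Q := by
  intro x
  rw [card_quotient_under L Q ℓ hℓ hℓQ, hB]
  show B.valuation (algebraMap (𝓞 L) (AlgebraicClosure ℚ)
    ((AlgEquiv.restrictNormalHom L σ) • x - x ^ ℓ)) < 1
  rw [map_sub, map_pow, algebraMap_restrict_smul]
  exact valuation_frob_sub_pow_lt_one B σ ℓ hσ _ (algebraMap_mem L B x)

/-- **Frobenius density, valuation subring form, for a finite Galois `L ⊆ ℚ̄`.** -/
theorem stmt_FD_galois (hNF : Stmt_FD_NF) (S : Finset ℕ)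
    (g : AlgebraicClosure ℚ ≃ₐ[ℚ] AlgebraicClosure ℚ) :
    ∃ (ℓ : ℕ) (A : ValuationSubring (AlgebraicClosure ℚ))
      (σ : AlgebraicClosure ℚ ≃ₐ[ℚ] AlgebraicClosure ℚ) (j : ℕ),
      ℓ.Prime ∧ ℓ ∉ S ∧ A.LiesOverPrime ℓ ∧ A.IsFrobeniusAt σ ℓ ∧
        ∀ x ∈ L, (σ ^ j) x = g x := by
  obtain ⟨Q, φ, ℓ, hQ, hℓ, hℓS, hℓQ, hin, hφ, hzp⟩ := hNF L (AlgEquiv.restrictNormalHom L g) S
  have hQ0 : Q ≠ ⊥ := by
    intro h
    rw [h, Ideal.mem_bot] at hℓQ
    exact hℓ.ne_zero (Nat.cast_eq_zero.mp hℓQ)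
  obtain ⟨B, hB⟩ := exists_valuationSubring_center L Q hQ0
  have hBℓ : B.LiesOverPrime ℓ := by
    show (ℓ : AlgebraicClosure ℚ) ∈ B.nonunits
    rw [B.mem_nonunits_iff]
    have := (hB _).mp hℓQ
    rwa [map_natCast] at this
  obtain ⟨σ, hσ⟩ := Fermat.Agent.Lib.FrobExists.exists_isFrobeniusAt ℓ hℓ B hBℓ
  have hσ' := isArithFrobAt_restrict L Q ℓ hℓ hℓQ B hB σ hσ
  -- uniqueness of the Frobenius
  have heq : AlgEquiv.restrictNormalHom L σ = φ := by
    have h1 := IsArithFrobAt.mul_inv_mem_inertia hσ' hφ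
    rw [hin, Subgroup.mem_bot] at h1
    exact mul_inv_eq_one.mp h1
  -- `g|L` is a power of `φ`
  have hmem : AlgEquiv.restrictNormalHom L g ∈ Subgroup.zpowers φ := by
    rw [hzp]
    exact Subgroup.mem_zpowers _
  obtain ⟨j, hj⟩ : ∃ j : ℕ, φ ^ j = AlgEquiv.restrictNormalHom L g := by
    have hfin : IsOfFinOrder φ := isOfFinOrder_of_finite φ
    rw [← hfin.mem_powers_iff_mem_zpowers] at hmem
    exact Submonoid.mem_powers_iff _ _ |>.mp hmem
  refine ⟨ℓ, B, σ, j, hℓ, hℓS, hBℓ, hσ, fun x hx => ?_⟩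
  have h2 : AlgEquiv.restrictNormalHom L (σ ^ j) = AlgEquiv.restrictNormalHom L g := by
    rw [map_pow, heq, hj]
  have h3 := AlgEquiv.restrictNormal_commutes (σ ^ j) L ⟨x, hx⟩
  have h4 := AlgEquiv.restrictNormal_commutes g L ⟨x, hx⟩
  have h5 : (σ ^ j).restrictNormal L = g.restrictNormal L := h2
  rw [h5] at h3
  exact h3.symm.trans h4

end Galois

/-- **Frobenius density, division form**, from the number field form. -/
theorem stmt_FD_of_NF (hNF : Stmt_FD_NF) : Fermat.Agent.R.Stmt_FD := by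
  intro S L₀ hfd g
  have : FiniteDimensional ℚ L₀ := hfd
  set L : IntermediateField ℚ (AlgebraicClosure ℚ) :=
    IntermediateField.normalClosure ℚ L₀ (AlgebraicClosure ℚ) with hL
  have hfdL : FiniteDimensional ℚ L := inferInstance
  have hnQ : Normal ℚ (AlgebraicClosure ℚ) := IsGalois.to_normal
  have hnorm : Normal ℚ L := normalClosure.normal ℚ L₀ (AlgebraicClosure ℚ)
  have hnf : NumberField L := { to_charZero := inferInstance, to_finiteDimensional := hfdL }
  have hgal : IsGalois ℚ L := { to_isSeparable := inferInstance, to_normal := hnorm }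
  obtain ⟨ℓ, A, σ, j, h1, h2, h3, h4, h5⟩ := stmt_FD_galois L hNF S g
  exact ⟨ℓ, A, σ, j, h1, h2, h3, h4, fun x hx => h5 x (L₀.le_normalClosure hx)⟩

end Fermat.Agent.Lib.FrobDensity.H97
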