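import Fermat.Agent.Lib.FrobDensity.H31_FrobSum
import Fermat.Agent.Lib.FrobDensity.H12_SplitZ
import Fermat.Agent.Lib.FrobDensity.H84_FibreCard
import Fermat.Agent.Lib.FrobDensity.H97_Bridge

/-!
# Item 61: the Frobenius density theorem (existence form), unconditional

Assembly of the packages of `NOTES/plan/FrobDensity.md`:

* A, A', C, B0, B3, FD: helper31 (`Lib/ZetaPrimes*`, `H31_*.lean`);
* B1 `Stmt_Split`, `Stmt_NormUnder`: helper12 (`H12_SplitZ.lean`);
* B2 `Stmt_FibreCard`: helper84 (`H84_FibreCard.lean`);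
* D bridge to `ValuationSubring ℚ̄`: helper97 (`H97_Bridge.lean`).

Results:

* `stmt_FrobSum : Stmt_FrobSum`;
* `stmt_FD_NF : Stmt_FD_NF` (number field form): for `L/ℚ` finite Galois, `g ∈ Gal(L/ℚ)` and a
  finite set `S` of primes there is a prime `Q` of `𝓞 L` over some `ℓ ∉ S`, with trivial inertia
  group, and a Frobenius `φ` at `Q` with `⟨φ⟩ = ⟨g⟩`;
* `stmt_FD : Fermat.Agent.R.Stmt_FD` (the form consumed by cluster R).
-/

namespace Fermat.Agent.Lib.FrobDensity

/-- The number field instance of the hypothesis of the counting lemma. -/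
theorem stmt_FrobSum : Stmt_FrobSum :=
  H31.stmt_FrobSum_of H12.stmt_Split H12.stmt_NormUnder H84.stmt_FibreCard

/-- **Frobenius density theorem, existence form, number field version.** -/
theorem stmt_FD_NF : Stmt_FD_NF :=
  H31.stmt_FD_NF_of_frobSum stmt_FrobSum

/-- **Frobenius density theorem, existence form**, for valuation subrings of `ℚ̄`. -/
theorem stmt_FD : Fermat.Agent.R.Stmt_FD :=
  H97.stmt_FD_of_NF stmt_FD_NF

end Fermat.Agent.Lib.FrobDensity
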