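import Fermat.Agent.Lib.FrobDensityCount

/-!
# Item 61 (Frobenius density): the abstract counting lemma, interface shape of helper84

`stmt_Count`: let `frob : P → G` be a map to a finite group and `w p s ≥ 0` weights, summable for
`s > 1`, each term bounded on `(1, 2]`.  If for every `g : G`
`∑_{frob p ∈ ⟨g⟩} w p s = (orderOf g) log (1/(s-1)) + O(1)` as `s → 1⁺`, then for every `g`
there are infinitely many `p` with `⟨frob p⟩ = ⟨g⟩`.

Also `tsum_fibres`: summation over the fibres of a map with weights summing to `1` on each fibre.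
-/

namespace Fermat.Agent.Lib.FrobDensity.H31

open Filter Topology Fermat.Agent.Lib.FrobDensityCount

variable {P : Type*} {G : Type*} [Group G] [Finite G]

/-- The sets `genSet frob H` carry the weight `κ * gens H * log (1/(s-1)) + O(1)`, given the
hypothesis for cyclic subgroups only. -/
theorem exists_bound_genSet_of_cyclic (W : ℝ → P → ℝ) (hWs : ∀ s, 1 < s → Summable (W s))
    (frob : P → G) (κ : ℝ)
    (hyp : ∀ x : G, ∃ B : ℝ, ∀ᶠ s in 𝓝[>] (1 : ℝ),
      |wsum W {p | frob p ∈ Subgroup.zpowers x} s -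
        κ * (Nat.card (Subgroup.zpowers x) : ℝ) * Real.log (1 / (s - 1))| ≤ B)
    (H : Subgroup G) :
    ∃ B : ℝ, ∀ᶠ s in 𝓝[>] (1 : ℝ),
      |wsum W (genSet frob H) s - κ * (gens H : ℝ) * Real.log (1 / (s - 1))| ≤ B := by
  classical
  have hfinS : Finite (Subgroup G) := by
    have := Fintype.ofFinite G
    exact Finite.of_injective (fun H : Subgroup G ↦ (H : Set G)) SetLike.coe_injective
  have := Fintype.ofFinite (Subgroup G)
  induction H using WellFoundedLT.induction with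
  | ind H ih =>
    by_cases hcyc : ∃ x : G, Subgroup.zpowers x = H
    swap
    · -- no generator: everything vanishes
      refine ⟨0, Filter.Eventually.of_forall (fun s ↦ ?_)⟩
      have h1 : genSet frob H = ∅ := by
        ext p
        simp only [genSet, Set.mem_ofPred_eq, Set.mem_empty_iff_false, iff_false]
        exact fun h ↦ hcyc ⟨frob p, h⟩
      have h2 : gens H = 0 := by
        have : IsEmpty {x : G // Subgroup.zpowers x = H} :=
          ⟨fun x ↦ hcyc ⟨x.1, x.2⟩⟩
        rw [gens, Nat.card_of_isEmpty]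
      rw [h1, h2]
      simp [wsum]
    obtain ⟨x, rfl⟩ := hcyc
    have hex : ∀ H' : Subgroup G, ∃ B : ℝ, H' < Subgroup.zpowers x → ∀ᶠ s in 𝓝[>] (1 : ℝ),
        |wsum W (genSet frob H') s - κ * (gens H' : ℝ) * Real.log (1 / (s - 1))| ≤ B := by
      intro H'
      by_cases h : H' < Subgroup.zpowers x
      · obtain ⟨B, hB⟩ := ih H' h
        exact ⟨B, fun _ ↦ hB⟩
      · exact ⟨0, fun h' ↦ absurd h' h⟩
    choose Bf hBf using hex
    obtain ⟨B₀, hB₀⟩ := hyp x
    set H : Subgroup G := Subgroup.zpowers x with hH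
    set F : Finset (Subgroup G) := (Finset.univ : Finset (Subgroup G)).filter (· < H) with hF
    have hsplit : (Finset.univ : Finset (Subgroup G)).filter (· ≤ H) = insert H F := by
      ext H'
      simp only [hF, Finset.mem_filter, Finset.mem_univ, true_and, Finset.mem_insert]
      exact le_iff_eq_or_lt
    have hHF : H ∉ F := by
      simp [hF]
    refine ⟨B₀ + ∑ H' ∈ F, Bf H', ?_⟩
    have hall : ∀ᶠ s in 𝓝[>] (1 : ℝ), ∀ H' ∈ F,
        |wsum W (genSet frob H') s - κ * (gens H' : ℝ) * Real.log (1 / (s - 1))|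
          ≤ Bf H' := by
      rw [Filter.eventually_all_finset]
      intro H' hH'
      exact hBf H' (Finset.mem_filter.mp hH').2
    filter_upwards [hB₀, hall, self_mem_nhdsWithin] with s hs0 hsall hs1
    have hs1' : (1 : ℝ) < s := hs1
    have h1 := wsum_preimage W frob (hWs s hs1') H
    rw [hsplit, Finset.sum_insert hHF] at h1
    have h2 := card_eq_sum_gens H
    rw [hsplit, Finset.sum_insert hHF] at h2
    have h2' : (Nat.card H : ℝ) = (gens H : ℝ) + ∑ H' ∈ F, (gens H' : ℝ) := by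
      rw [h2]
      push_cast
      rfl
    have key : wsum W (genSet frob H) s - κ * (gens H : ℝ) * Real.log (1 / (s - 1)) =
        (wsum W {p | frob p ∈ H} s - κ * (Nat.card H : ℝ) * Real.log (1 / (s - 1))) -
        ∑ H' ∈ F, (wsum W (genSet frob H') s -
          κ * (gens H' : ℝ) * Real.log (1 / (s - 1))) := by
      rw [h1, h2', Finset.sum_sub_distrib, ← Finset.sum_mul, ← Finset.mul_sum]
      ring
    rw [key]
    calc |(wsum W {p | frob p ∈ H} s - κ * (Nat.card H : ℝ) * Real.log (1 / (s - 1))) -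
          ∑ H' ∈ F, (wsum W (genSet frob H') s -
            κ * (gens H' : ℝ) * Real.log (1 / (s - 1)))|
        ≤ |wsum W {p | frob p ∈ H} s - κ * (Nat.card H : ℝ) * Real.log (1 / (s - 1))| +
          |∑ H' ∈ F, (wsum W (genSet frob H') s -
            κ * (gens H' : ℝ) * Real.log (1 / (s - 1)))| := abs_sub _ _
      _ ≤ B₀ + ∑ H' ∈ F, Bf H' := by
          refine add_le_add hs0 ((Finset.abs_sum_le_sum_abs _ _).trans ?_)
          exact Finset.sum_le_sum hsall

/-- **Abstract counting lemma** (item 61), in the shape requested by helper84. -/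
theorem stmt_Count {P : Type*} {G : Type*} [Group G] [Finite G] (frob : P → G)
    (w : P → ℝ → ℝ) (_hw0 : ∀ p s, 0 ≤ w p s) (hws : ∀ s, 1 < s → Summable (fun p ↦ w p s))
    (hwb : ∀ p, ∃ c > 0, ∀ s, 1 < s → s ≤ 2 → w p s ≤ c)
    (hyp : ∀ g : G, ∃ B : ℝ, ∀ᶠ s in 𝓝[>] (1 : ℝ),
      |∑' p : {p // frob p ∈ Subgroup.zpowers g}, w p.1 s -
        (orderOf g : ℝ) * Real.log (1 / (s - 1))| ≤ B) :
    ∀ g : G, {p | Subgroup.zpowers (frob p) = Subgroup.zpowers g}.Infinite := by
  classical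
  intro g
  set W : ℝ → P → ℝ := fun s p ↦ w p s with hW
  have hyp' : ∀ x : G, ∃ B : ℝ, ∀ᶠ s in 𝓝[>] (1 : ℝ),
      |wsum W {p | frob p ∈ Subgroup.zpowers x} s -
        1 * (Nat.card (Subgroup.zpowers x) : ℝ) * Real.log (1 / (s - 1))| ≤ B := by
    intro x
    obtain ⟨B, hB⟩ := hyp x
    refine ⟨B, hB.mono (fun s hs ↦ ?_)⟩
    rw [wsum_eq_tsum_subtype, one_mul, Nat.card_zpowers]
    exact hs
  obtain ⟨B, hB⟩ := exists_bound_genSet_of_cyclic W hws frob 1 hyp' (Subgroup.zpowers g)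
  intro hfin
  set A : Set P := genSet frob (Subgroup.zpowers g) with hA
  have hfinA : A.Finite := hfin
  have hcpos : (0 : ℝ) < (gens (Subgroup.zpowers g) : ℝ) := by
    exact_mod_cast gens_zpowers_pos g
  choose c hc0 hc using hwb
  have hupper : ∀ s : ℝ, 1 < s → s ≤ 2 → wsum W A s ≤ ∑ p ∈ hfinA.toFinset, c p := by
    intro s hs hs2
    have h1 : wsum W A s = ∑ p ∈ hfinA.toFinset, W s p := by
      rw [wsum, tsum_eq_sum (s := hfinA.toFinset)]
      · refine Finset.sum_congr rfl (fun p hp ↦ ?_)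
        rw [Set.indicator_of_mem ((Set.Finite.mem_toFinset hfinA).mp hp)]
      · intro p hp
        rw [Set.indicator_of_notMem]
        exact fun h ↦ hp ((Set.Finite.mem_toFinset hfinA).mpr h)
    rw [h1]
    exact Finset.sum_le_sum (fun p _ ↦ hc p s hs hs2)
  have hlarge : ∀ᶠ s in 𝓝[>] (1 : ℝ),
      ((∑ p ∈ hfinA.toFinset, c p) + B) / (gens (Subgroup.zpowers g) : ℝ) <
        Real.log (1 / (s - 1)) :=
    tendsto_log_one_div_sub.eventually_gt_atTop _
  have hle2 : ∀ᶠ s in 𝓝[>] (1 : ℝ), s ≤ 2 := by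
    have : ∀ᶠ s in 𝓝 (1 : ℝ), s ≤ 2 := (eventually_le_nhds (by norm_num : (1 : ℝ) < 2))
    exact this.filter_mono nhdsWithin_le_nhds
  have hgt : ∀ᶠ s in 𝓝[>] (1 : ℝ), (1 : ℝ) < s := self_mem_nhdsWithin
  obtain ⟨s, hs1, hs2, hs3, hs4⟩ :=
    (hB.and (hlarge.and (hgt.and hle2))).exists
  have h4 := hupper s hs3 hs4
  have h5 := (abs_le.mp hs1).1
  rw [div_lt_iff₀ hcpos] at hs2
  rw [one_mul] at h5
  nlinarith

/-- **Summation over fibres.**  For `π : X → Y` and weights `c` on `X` with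
`∑_{x ∈ π⁻¹ y} c x = 1` for every `y`, and `u ≥ 0` summable on `Y`, `c ≥ 0`:
`∑' x, c x * u (π x) = ∑' y, u y`. -/
theorem tsum_fibres {X Y : Type*} (π : X → Y) (c : X → ℝ) (u : Y → ℝ)
    (hc0 : ∀ x, 0 ≤ c x) (hu0 : ∀ y, 0 ≤ u y) (hu : Summable u)
    (hfib : ∀ y, HasSum (fun x : {x // π x = y} ↦ c x) 1) :
    HasSum (fun x ↦ c x * u (π x)) (∑' y, u y) := by
  rw [← (Equiv.sigmaFiberEquiv π).hasSum_iff]
  have hinner : ∀ y : Y, HasSum (fun x : {x // π x = y} ↦
      ((fun x ↦ c x * u (π x)) ∘ (Equiv.sigmaFiberEquiv π)) ⟨y, x⟩) (u y) := by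
    intro y
    have h1 : (fun x : {x // π x = y} ↦
        ((fun x ↦ c x * u (π x)) ∘ (Equiv.sigmaFiberEquiv π)) ⟨y, x⟩) =
        fun x : {x // π x = y} ↦ c x * u y := by
      funext x
      simp [x.2]
    rw [h1]
    simpa using (hfib y).mul_right (u y)
  refine HasSum.sigma_of_hasSum hu.hasSum hinner ?_
  refine (summable_sigma_of_nonneg (fun x ↦ mul_nonneg (hc0 _) (hu0 _))).mpr
    ⟨fun y ↦ (hinner y).summable, ?_⟩
  refine hu.congr (fun y ↦ ?_)
  exact (hinner y).tsum_eq.symm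

end Fermat.Agent.Lib.FrobDensity.H31
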