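import Fermat.Agent.Lib.ZetaPrimes
import Fermat.Agent.Lib.ZetaPrimesDeg

/-!
# Item 61 (Frobenius density): the sum over degree-one primes outside a finite set

For a number field `K` and a finite set `Bad` of primes of `K`,
`∑_{v ∉ Bad, N v prime} N(v)^{-s} = log (1/(s-1)) + O(1)` as `s → 1⁺`.
-/

namespace Fermat.Agent.Lib.FrobDensity.H31

open NumberField IsDedekindDomain Filter Topology Ideal Fermat.Agent.Lib.ZetaPrimes

variable (K : Type*) [Field K] [NumberField K]

/-- The primes of absolute degree one outside `Bad`. -/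
def goodDegOne (Bad : Set (HeightOneSpectrum (𝓞 K))) : Set (HeightOneSpectrum (𝓞 K)) :=
  {v | (absNorm v.asIdeal).Prime ∧ v ∉ Bad}

lemma primeTerm_le_one' {s : ℝ} (hs : 1 < s) (v : HeightOneSpectrum (𝓞 K)) :
    primeTerm K s v ≤ 1 := by
  have := primeTerm_le_half K hs.le v
  linarith

/-- The sum over the complement of `goodDegOne` is bounded. -/
theorem tsum_compl_goodDegOne_le {Bad : Set (HeightOneSpectrum (𝓞 K))} (hBad : Bad.Finite) :
    ∃ C : ℝ, ∀ s : ℝ, 1 < s →
      ∑' v : ((goodDegOne K Bad)ᶜ : Set (HeightOneSpectrum (𝓞 K))), primeTerm K s v ≤ C := by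
  classical
  obtain ⟨C₀, hC₀⟩ := notPrimeNorm_le K
  refine ⟨C₀ + hBad.toFinset.card, fun s hs ↦ ?_⟩
  have hsum := summable_primeTerm K s hs
  have hsub : ∀ v : HeightOneSpectrum (𝓞 K),
      ((goodDegOne K Bad)ᶜ : Set (HeightOneSpectrum (𝓞 K))).indicator (primeTerm K s) v ≤
        ({v | ¬ (absNorm v.asIdeal).Prime} : Set (HeightOneSpectrum (𝓞 K))).indicator
          (primeTerm K s) v + (Bad.indicator (primeTerm K s) v) := by
    intro v
    by_cases h1 : (absNorm v.asIdeal).Prime
    · by_cases h2 : v ∈ Bad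
      · have hv : v ∈ (goodDegOne K Bad)ᶜ := fun h ↦ h.2 h2
        rw [Set.indicator_of_mem hv, Set.indicator_of_mem h2,
          Set.indicator_of_notMem (by simpa using h1)]
        simp
      · have hv : v ∉ (goodDegOne K Bad)ᶜ := fun h ↦ h ⟨h1, h2⟩
        rw [Set.indicator_of_notMem hv, Set.indicator_of_notMem h2,
          Set.indicator_of_notMem (by simpa using h1)]
        simp
    · have hv : v ∈ (goodDegOne K Bad)ᶜ := fun h ↦ h1 h.1
      have hv' : v ∈ ({v | ¬ (absNorm v.asIdeal).Prime} : Set (HeightOneSpectrum (𝓞 K))) := h1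
      rw [Set.indicator_of_mem hv, Set.indicator_of_mem hv']
      have : 0 ≤ Bad.indicator (primeTerm K s) v :=
        Set.indicator_nonneg (fun v _ ↦ primeTerm_nonneg K s v) v
      linarith
  rw [tsum_subtype ((goodDegOne K Bad)ᶜ) (primeTerm K s)]
  have h1 : ∑' v, ({v | ¬ (absNorm v.asIdeal).Prime} : Set (HeightOneSpectrum (𝓞 K))).indicator
      (primeTerm K s) v ≤ C₀ := by
    rw [← tsum_subtype]
    exact hC₀ s hs
  have h2 : ∑' v, Bad.indicator (primeTerm K s) v ≤ hBad.toFinset.card := by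
    rw [tsum_eq_sum (s := hBad.toFinset)]
    · calc ∑ v ∈ hBad.toFinset, Bad.indicator (primeTerm K s) v
          ≤ ∑ _v ∈ hBad.toFinset, (1 : ℝ) := by
            refine Finset.sum_le_sum (fun v hv ↦ ?_)
            rw [Set.indicator_of_mem ((Set.Finite.mem_toFinset hBad).mp hv)]
            exact primeTerm_le_one' K hs v
        _ = hBad.toFinset.card := by simp
    · intro v hv
      rw [Set.indicator_of_notMem]
      exact fun h ↦ hv ((Set.Finite.mem_toFinset hBad).mpr h)
  calc ∑' v, ((goodDegOne K Bad)ᶜ : Set (HeightOneSpectrum (𝓞 K))).indicator (primeTerm K s) v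
      ≤ ∑' v, (({v | ¬ (absNorm v.asIdeal).Prime} : Set (HeightOneSpectrum (𝓞 K))).indicator
          (primeTerm K s) v + (Bad.indicator (primeTerm K s) v)) := by
        refine Summable.tsum_le_tsum hsub (hsum.indicator _) ?_
        exact (hsum.indicator _).add (hsum.indicator _)
    _ = ∑' v, ({v | ¬ (absNorm v.asIdeal).Prime} : Set (HeightOneSpectrum (𝓞 K))).indicator
          (primeTerm K s) v + ∑' v, Bad.indicator (primeTerm K s) v :=
        Summable.tsum_add (hsum.indicator _) (hsum.indicator _)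
    _ ≤ C₀ + hBad.toFinset.card := add_le_add h1 h2

/-- **Degree-one primes outside a finite set carry `log (1/(s-1)) + O(1)`.** -/
theorem exists_bound_goodDegOne {Bad : Set (HeightOneSpectrum (𝓞 K))} (hBad : Bad.Finite) :
    ∃ B : ℝ, ∀ᶠ s in 𝓝[>] (1 : ℝ),
      |∑' v : goodDegOne K Bad, primeTerm K s v - Real.log (1 / (s - 1))| ≤ B := by
  obtain ⟨C₁, hC₁⟩ := primeSum_ge K
  obtain ⟨C₂, hC₂⟩ := primeSum_le K
  obtain ⟨C₃, hC₃⟩ := tsum_compl_goodDegOne_le K hBad
  refine ⟨max (C₁ + C₃) C₂, ?_⟩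
  have hgt : ∀ᶠ s in 𝓝[>] (1 : ℝ), (1 : ℝ) < s := self_mem_nhdsWithin
  filter_upwards [hC₁, hC₂, hgt] with s h1 h2 hs
  have hsum := summable_primeTerm K s hs
  have hsplit := hsum.tsum_subtype_add_tsum_subtype_compl (goodDegOne K Bad)
  have h3 := hC₃ s hs
  have h4 : 0 ≤ ∑' v : ((goodDegOne K Bad)ᶜ : Set (HeightOneSpectrum (𝓞 K))),
      primeTerm K s v := tsum_nonneg (fun v ↦ primeTerm_nonneg K s v)
  rw [abs_le]
  constructor
  · have := le_max_left (C₁ + C₃) C₂
    linarith
  · have := le_max_right (C₁ + C₃) C₂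
    linarith

end Fermat.Agent.Lib.FrobDensity.H31
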