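import Fermat.Agent.Lib.FrobDensity.Main

/-!
# Relative Frobenius density (helper31)

`stmt_FD_rel : Stmt_FD_rel`: let `L/K` be a Galois extension of number fields, `g ∈ Gal(L/K)` and
`T` a finite set of primes.  Then there are a prime `Q` of `𝓞 L` over a rational prime `ℓ ∉ T`,
unramified over `ℤ`, such that `Q ∩ 𝓞 K` has absolute norm `ℓ` (degree one), and a Frobenius
`φ ∈ Gal(L/K)` at `Q` with `⟨φ⟩ = ⟨g⟩`.

Proof: apply the absolute theorem `stmt_FD_NF` to the normal closure `N` of `L` over `ℚ` and a lift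
of `g` to `Gal(N/K) ⊆ Gal(N/ℚ)`; the Frobenius `φ` found lies in `⟨g̃⟩ ⊆ Gal(N/K)`, so it fixes `K`,
hence the residue field of `Q_N ∩ 𝓞 K` has `ℓ` elements; restrict to `L`.
-/

set_option linter.unusedSectionVars false
set_option linter.style.haveILetI false

namespace Fermat.Agent.Lib.FrobDensity

open NumberField IsDedekindDomain Ideal
open scoped Pointwise

/-- **Relative Frobenius density theorem, existence form.** -/
def Stmt_FD_rel : Prop :=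
  ∀ (K L : Type) [Field K] [NumberField K] [Field L] [NumberField L] [Algebra K L] [IsGalois K L]
    (g : L ≃ₐ[K] L) (T : Finset ℕ),
    ∃ (Q : Ideal (𝓞 L)) (φ : L ≃ₐ[K] L) (ℓ : ℕ), Q.IsPrime ∧ ℓ.Prime ∧ ℓ ∉ T ∧
      ((ℓ : ℕ) : 𝓞 L) ∈ Q ∧ Q.ramificationIdx ℤ = 1 ∧ Q.inertia (L ≃ₐ[K] L) = ⊥ ∧
      Ideal.absNorm (Q.under (𝓞 K)) = ℓ ∧
      IsArithFrobAt (𝓞 K) φ Q ∧ Subgroup.zpowers φ = Subgroup.zpowers g

namespace H31

section Lemmas

variable (K N : Type) [Field K] [NumberField K] [Field N] [NumberField N] [Algebra K N]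

/-- If every element of `𝓞 K` satisfies `x ^ ℓ ≡ x` modulo the prime `w` of `𝓞 N` (over `ℓ`), then
the prime of `K` below `w` has norm `ℓ`. -/
lemma absNorm_under_eq_of_pow_congr (w : Ideal (𝓞 N)) [hw : w.IsPrime] (hw0 : w ≠ ⊥)
    (ℓ : ℕ) (hℓ : ℓ.Prime) (hℓw : ((ℓ : ℕ) : 𝓞 N) ∈ w)
    (h : ∀ x : 𝓞 K, algebraMap (𝓞 K) (𝓞 N) x - (algebraMap (𝓞 K) (𝓞 N) x) ^ ℓ ∈ w) :
    Ideal.absNorm (w.under (𝓞 K)) = ℓ := by
  set 𝔮 : Ideal (𝓞 K) := w.under (𝓞 K) with h𝔮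
  have h𝔮0 : 𝔮 ≠ ⊥ := Ideal.under_ne_bot (𝓞 K) hw0
  have h𝔮p : 𝔮.IsPrime := inferInstance
  have h𝔮max : 𝔮.IsMaximal := h𝔮p.isMaximal h𝔮0
  letI := Ideal.Quotient.field 𝔮
  haveI hfin : Finite (𝓞 K ⧸ 𝔮) := Ideal.finiteQuotientOfFreeOfNeBot 𝔮 h𝔮0
  have hpow : ∀ x : 𝓞 K ⧸ 𝔮, x ^ ℓ = x := by
    intro x
    obtain ⟨y, rfl⟩ := Ideal.Quotient.mk_surjective x
    rw [← map_pow, eq_comm, Ideal.Quotient.eq, h𝔮, Ideal.under_def, Ideal.mem_comap, map_sub,
      map_pow]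
    exact h y
  have hle : Nat.card (𝓞 K ⧸ 𝔮) ≤ ℓ := H12.card_le_of_forall_pow_eq hℓ.one_lt hpow
  have hℓ𝔮 : ((ℓ : ℕ) : 𝓞 K) ∈ 𝔮 := by
    rw [h𝔮, Ideal.under_def, Ideal.mem_comap, map_natCast]
    exact hℓw
  have hzero : ((ℓ : ℕ) : 𝓞 K ⧸ 𝔮) = 0 := by
    rw [← map_natCast (Ideal.Quotient.mk 𝔮), Ideal.Quotient.eq_zero_iff_mem]
    exact hℓ𝔮
  have hdvd : ℓ ∣ Nat.card (𝓞 K ⧸ 𝔮) := by
    have h1 : addOrderOf (1 : 𝓞 K ⧸ 𝔮) ∣ ℓ := by
      apply addOrderOf_dvd_of_nsmul_eq_zero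
      rw [nsmul_one]
      exact hzero
    have h2 : addOrderOf (1 : 𝓞 K ⧸ 𝔮) ≠ 1 := by
      rw [Ne, AddMonoid.addOrderOf_eq_one_iff]
      exact one_ne_zero
    have h3 : addOrderOf (1 : 𝓞 K ⧸ 𝔮) = ℓ := (Nat.dvd_prime hℓ).mp h1 |>.resolve_left h2
    rw [← h3]
    exact addOrderOf_dvd_natCard _
  have hge : ℓ ≤ Nat.card (𝓞 K ⧸ 𝔮) := Nat.le_of_dvd Nat.card_pos hdvd
  rw [Ideal.absNorm_apply, Submodule.cardQuot_apply]
  exact le_antisymm hle hge

end Lemmas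

section Tower

variable (K L N : Type) [Field K] [NumberField K] [Field L] [NumberField L] [Field N]
  [NumberField N] [Algebra K L] [Algebra K N] [Algebra L N] [IsScalarTower K L N]

/-- Unramified over `ℤ` in the top field implies trivial inertia in `Gal(L/K)` for the prime
below. -/
lemma inertia_under_eq_bot [IsGalois K L] (w : Ideal (𝓞 N)) [hw : w.IsPrime]
    (he : w.ramificationIdx ℤ = 1) :
    (w.under (𝓞 L)).ramificationIdx ℤ = 1 ∧ (w.under (𝓞 L)).inertia (L ≃ₐ[K] L) = ⊥ := by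
  set Q : Ideal (𝓞 L) := w.under (𝓞 L) with hQ
  haveI : w.LiesOver Q := ⟨rfl⟩
  have h1 : Q.ramificationIdx ℤ ∣ w.ramificationIdx ℤ :=
    Ideal.ramificationIdx_below_dvd (R := ℤ) (S := 𝓞 L) (T := 𝓞 N) Q w
  rw [he, Nat.dvd_one] at h1
  refine ⟨h1, ?_⟩
  haveI : Q.LiesOver (Q.under (𝓞 K)) := ⟨rfl⟩
  have h2 : Q.ramificationIdx (𝓞 K) ∣ Q.ramificationIdx ℤ :=
    Ideal.ramificationIdx_above_dvd (R := ℤ) (S := 𝓞 K) (T := 𝓞 L) (Q.under (𝓞 K)) Q
  rw [h1, Nat.dvd_one] at h2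
  have hG : IsGaloisGroup (L ≃ₐ[K] L) (𝓞 K) (𝓞 L) := IsGaloisGroup.of_isFractionRing _ _ _ K L
  have key := Ideal.card_inertia_eq_ramificationIdxIn (G := L ≃ₐ[K] L) (Q.under (𝓞 K)) Q
  rw [Ideal.ramificationIdxIn_eq_ramificationIdx (Q.under (𝓞 K)) Q (L ≃ₐ[K] L), h2] at key
  exact Subgroup.card_eq_one.mp key

/-- Trivial inertia in `Gal(N/ℚ)` gives ramification index one over `ℤ`. -/
lemma ramificationIdx_int_eq_one [IsGalois ℚ N] (w : Ideal (𝓞 N)) [hw : w.IsPrime]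
    (hin : w.inertia (N ≃ₐ[ℚ] N) = ⊥) : w.ramificationIdx ℤ = 1 := by
  have hG : IsGaloisGroup (N ≃ₐ[ℚ] N) ℤ (𝓞 N) := IsGaloisGroup.of_isFractionRing _ _ _ ℚ N
  have key := Ideal.card_inertia_eq_ramificationIdxIn (G := N ≃ₐ[ℚ] N) (w.under ℤ) w
  rw [hin, Subgroup.card_bot] at key
  rw [← Ideal.ramificationIdxIn_eq_ramificationIdx (w.under ℤ) w (N ≃ₐ[ℚ] N)]
  exact key.symm

/-- The relative density statement for a tower `K ⊆ L ⊆ N` with `N/ℚ` Galois. -/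
theorem fd_rel_tower (hNF : Stmt_FD_NF) [IsGalois ℚ N] [IsGalois K L]
    (g : L ≃ₐ[K] L) (T : Finset ℕ) :
    ∃ (Q : Ideal (𝓞 L)) (φ : L ≃ₐ[K] L) (ℓ : ℕ), Q.IsPrime ∧ ℓ.Prime ∧ ℓ ∉ T ∧
      ((ℓ : ℕ) : 𝓞 L) ∈ Q ∧ Q.ramificationIdx ℤ = 1 ∧ Q.inertia (L ≃ₐ[K] L) = ⊥ ∧
      Ideal.absNorm (Q.under (𝓞 K)) = ℓ ∧
      IsArithFrobAt (𝓞 K) φ Q ∧ Subgroup.zpowers φ = Subgroup.zpowers g := by
  haveI : IsGalois K N := IsGalois.tower_top_of_isGalois ℚ K N
  haveI : Normal K L := IsGalois.to_normal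
  haveI : Normal K N := IsGalois.to_normal
  obtain ⟨gK, hgK⟩ := AlgEquiv.restrictNormalHom_surjective (F := K) (K₁ := L) N g
  obtain ⟨w, φ, ℓ, hw, hℓ, hℓT, hℓw, hin, hφ, hzp⟩ := hNF N (gK.restrictScalars ℚ) T
  haveI := hw
  have hw0 : w ≠ ⊥ := by
    rintro rfl
    rw [Ideal.mem_bot] at hℓw
    exact hℓ.ne_zero (Nat.cast_eq_zero.mp hℓw)
  -- `φ` and `g̃` are powers of each other
  have hφmem : φ ∈ Subgroup.zpowers (gK.restrictScalars ℚ) := hzp ▸ Subgroup.mem_zpowers φ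
  obtain ⟨j, hj⟩ := Subgroup.mem_zpowers_iff.mp hφmem
  have hgmem : gK.restrictScalars ℚ ∈ Subgroup.zpowers φ := hzp.symm ▸ Subgroup.mem_zpowers _
  obtain ⟨i, hi⟩ := Subgroup.mem_zpowers_iff.mp hgmem
  set φK : N ≃ₐ[K] N := gK ^ j with hφK
  have hφK' : φK.restrictScalars ℚ = φ := by
    rw [← hj, hφK]
    exact map_zpow (AlgEquiv.restrictScalarsHom ℚ) gK j
  have hgK' : φK ^ i = gK := by
    apply AlgEquiv.restrictScalars_injective ℚ
    rw [← hi, ← hφK']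
    exact map_zpow (AlgEquiv.restrictScalarsHom ℚ) φK i
  -- the Frobenius congruence with exponent `ℓ`
  let W : HeightOneSpectrum (𝓞 N) := ⟨w, hw, hw0⟩
  have hℓW : ℓ = ZetaPrimes.ratPrime N W := H12.eq_ratPrime_of_mem N W hℓ hℓw
  have hφ' : ∀ y : 𝓞 N, φ • y - y ^ ℓ ∈ w := by
    have := (H12.isArithFrobAt_int_iff N W φ).mp hφ
    rw [← hℓW] at this
    exact this
  -- `φ` fixes `𝓞 K`
  have hfix : ∀ x : 𝓞 K, φ • (algebraMap (𝓞 K) (𝓞 N) x) = algebraMap (𝓞 K) (𝓞 N) x := by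
    intro x
    apply Subtype.ext
    change φ (algebraMap K N (x : K)) = algebraMap K N (x : K)
    rw [← hφK']
    exact φK.commutes (x : K)
  have habs : Ideal.absNorm (w.under (𝓞 K)) = ℓ := by
    refine absNorm_under_eq_of_pow_congr K N w hw0 ℓ hℓ hℓw (fun x ↦ ?_)
    have := hφ' (algebraMap (𝓞 K) (𝓞 N) x)
    rwa [hfix] at this
  -- restriction to `L`
  set Q : Ideal (𝓞 L) := w.under (𝓞 L) with hQ
  have hQK : Q.under (𝓞 K) = w.under (𝓞 K) := Ideal.under_under w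
  obtain ⟨heQ, hinQ⟩ := inertia_under_eq_bot K L N w (ramificationIdx_int_eq_one N w hin)
  refine ⟨Q, AlgEquiv.restrictNormalHom L φK, ℓ, inferInstance, hℓ, hℓT, ?_, heQ, hinQ, ?_, ?_, ?_⟩
  · rw [hQ, Ideal.under_def, Ideal.mem_comap, map_natCast]
    exact hℓw
  · rw [hQK]
    exact habs
  · refine (H12.isArithFrobAt_iff (K := K) (M := L) (G := L ≃ₐ[K] L) Q
      (AlgEquiv.restrictNormalHom L φK)).mpr ?_
    rw [hQK, habs]
    intro x
    rw [hQ, Ideal.under_def, Ideal.mem_comap, map_sub, map_pow]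
    have h1 : algebraMap (𝓞 L) (𝓞 N) ((AlgEquiv.restrictNormalHom L φK) • x) =
        φ • (algebraMap (𝓞 L) (𝓞 N) x) := by
      apply Subtype.ext
      change algebraMap L N ((AlgEquiv.restrictNormalHom L φK) (x : L)) =
        φ (algebraMap L N (x : L))
      rw [← hφK']
      exact AlgEquiv.restrictNormal_commutes φK L (x : L)
    rw [h1]
    exact hφ' _
  · have hφL : AlgEquiv.restrictNormalHom L φK = g ^ j := by
      rw [hφK, map_zpow (AlgEquiv.restrictNormalHom (F := K) (K₁ := N) L) gK j, hgK]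
    have hgL : g = (AlgEquiv.restrictNormalHom L φK) ^ i := by
      rw [← map_zpow (AlgEquiv.restrictNormalHom (F := K) (K₁ := N) L) φK i, hgK', hgK]
    apply le_antisymm
    · rw [Subgroup.zpowers_le, hφL]
      exact Subgroup.zpow_mem_zpowers g j
    · rw [Subgroup.zpowers_le]
      nth_rewrite 1 [hgL]
      exact Subgroup.zpow_mem_zpowers _ i

end Tower

/-- The relative Frobenius density theorem, from the absolute number field form. -/
theorem stmt_FD_rel_of_NF (hNF : Stmt_FD_NF) : Stmt_FD_rel := by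
  intro K L _ _ _ _ _ _ g T
  haveI : IsScalarTower ℚ L (AlgebraicClosure L) := inferInstance
  haveI : Algebra.IsAlgebraic ℚ (AlgebraicClosure L) :=
    Algebra.IsAlgebraic.trans ℚ L (AlgebraicClosure L)
  haveI : IsAlgClosure ℚ (AlgebraicClosure L) := ⟨inferInstance, inferInstance⟩
  haveI : Normal ℚ (AlgebraicClosure L) := inferInstance
  let N : IntermediateField ℚ (AlgebraicClosure L) :=
    IntermediateField.normalClosure ℚ L (AlgebraicClosure L)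
  haveI : Normal ℚ N := normalClosure.normal ℚ L (AlgebraicClosure L)
  haveI : FiniteDimensional ℚ N := inferInstance
  haveI : NumberField N := { to_charZero := inferInstance, to_finiteDimensional := inferInstance }
  haveI : IsGalois ℚ N := { to_isSeparable := inferInstance, to_normal := inferInstance }
  letI : Algebra L N := inferInstance
  letI : Algebra K N := ((algebraMap L N).comp (algebraMap K L)).toAlgebra
  haveI : IsScalarTower K L N := IsScalarTower.of_algebraMap_eq (fun _ ↦ rfl)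
  exact fd_rel_tower K L N hNF g T

end H31

/-- **Relative Frobenius density theorem, existence form** (unconditional). -/
theorem stmt_FD_rel : Stmt_FD_rel := H31.stmt_FD_rel_of_NF stmt_FD_NF

end Fermat.Agent.Lib.FrobDensity
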