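import Mathlib

/-!
# Frobenius density (item 61), helper31: finiteness of the ramified primes

For a number field `L`, Galois over `ℚ`:

* `inertia_eq_bot_of_isUnramifiedAt` : `Algebra.IsUnramifiedAt ℤ P → P.inertia Gal(L/ℚ) = ⊥`;
* `inertia_eq_bot_of_discr_notMem` : a prime of `𝓞 L` not containing `discr L` has trivial
  inertia group;
* `finite_setOf_intCast_mem` : for `d ≠ 0`, only finitely many height-one primes of `𝓞 K`
  contain `d`;
* `finite_setOf_inertia_ne_bot` : only finitely many primes of `𝓞 L` have nontrivial inertia.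
-/

set_option linter.unusedSectionVars false
set_option linter.style.haveILetI false

namespace Fermat.Agent.Lib.FrobDensity.H31

open NumberField IsDedekindDomain

/-- Unramified over `ℤ` implies trivial inertia group in `Gal(L/ℚ)`. -/
theorem inertia_eq_bot_of_isUnramifiedAt (L : Type*) [Field L] [NumberField L] [IsGalois ℚ L]
    (P : Ideal (𝓞 L)) [P.IsPrime] (h : Algebra.IsUnramifiedAt ℤ P) :
    P.inertia (L ≃ₐ[ℚ] L) = ⊥ := by
  have hG : IsGaloisGroup (L ≃ₐ[ℚ] L) ℤ (𝓞 L) := IsGaloisGroup.of_isFractionRing _ _ _ ℚ L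
  rw [← Ideal.ramificationIdx_eq_one_iff] at h
  have key := Ideal.card_inertia_eq_ramificationIdxIn (G := L ≃ₐ[ℚ] L) (P.under ℤ) P
  rw [Ideal.ramificationIdxIn_eq_ramificationIdx (P.under ℤ) P (L ≃ₐ[ℚ] L), h] at key
  exact Subgroup.card_eq_one.mp key

/-- A nonzero prime of `𝓞 K` contains a rational prime. -/
theorem exists_prime_intCast_mem (K : Type*) [Field K] [NumberField K]
    (P : Ideal (𝓞 K)) [hP : P.IsPrime] (hP0 : P ≠ ⊥) :
    ∃ p : ℤ, Prime p ∧ (p : 𝓞 K) ∈ P := by
  have hne : P.under ℤ ≠ ⊥ := Ideal.under_ne_bot ℤ hP0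
  have hprime : (P.under ℤ).IsPrime := inferInstance
  have hprinc : (P.under ℤ).IsPrincipal := IsPrincipalIdealRing.principal _
  refine ⟨Submodule.IsPrincipal.generator (P.under ℤ),
    Submodule.IsPrincipal.prime_generator_of_isPrime _ hne, ?_⟩
  have hmem : Submodule.IsPrincipal.generator (P.under ℤ) ∈ P.under ℤ :=
    Submodule.IsPrincipal.generator_mem _
  have h2 := Ideal.mem_comap.mp hmem
  simpa using h2

/-- A prime of `𝓞 L` (`L/ℚ` Galois) not containing `discr L` has trivial inertia group. -/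
theorem inertia_eq_bot_of_discr_notMem (L : Type*) [Field L] [NumberField L] [IsGalois ℚ L]
    (P : Ideal (𝓞 L)) [hP : P.IsPrime] (hP0 : P ≠ ⊥)
    (hd : ((discr L : ℤ) : 𝓞 L) ∉ P) : P.inertia (L ≃ₐ[ℚ] L) = ⊥ := by
  obtain ⟨p, hp, hpP⟩ := exists_prime_intCast_mem L P hP0
  have hndvd : ¬ p ∣ discr L := by
    rintro ⟨c, hc⟩
    apply hd
    rw [hc]
    push_cast
    exact Ideal.mul_mem_right _ _ hpP
  have h := (NumberField.not_dvd_discr_iff_forall_mem L (𝓞 L) hp).mp hndvd P hP hpP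
  exact inertia_eq_bot_of_isUnramifiedAt L P h

/-- For `d ≠ 0`, only finitely many height-one primes of `𝓞 K` contain `d`. -/
theorem finite_setOf_intCast_mem (K : Type*) [Field K] [NumberField K] {d : ℤ} (hd : d ≠ 0) :
    {v : HeightOneSpectrum (𝓞 K) | (d : 𝓞 K) ∈ v.asIdeal}.Finite := by
  have hI : Ideal.span {(d : 𝓞 K)} ≠ ⊥ := by
    rw [Ne, Ideal.span_singleton_eq_bot]
    exact_mod_cast hd
  refine (Ideal.finite_factors hI).subset ?_
  intro v hv
  simp only [Set.mem_ofPred_eq] at hv ⊢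
  rw [Ideal.dvd_span_singleton]
  exact hv

/-- Only finitely many primes of `𝓞 L` have nontrivial inertia group in `Gal(L/ℚ)`. -/
theorem finite_setOf_inertia_ne_bot (L : Type*) [Field L] [NumberField L] [IsGalois ℚ L] :
    {w : HeightOneSpectrum (𝓞 L) | w.asIdeal.inertia (L ≃ₐ[ℚ] L) ≠ ⊥}.Finite := by
  refine (finite_setOf_intCast_mem L (NumberField.discr_ne_zero L)).subset ?_
  intro w hw
  simp only [Set.mem_ofPred_eq] at hw ⊢
  by_contra hd
  haveI := w.isPrime
  exact hw (inertia_eq_bot_of_discr_notMem L w.asIdeal w.ne_bot hd)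

end Fermat.Agent.Lib.FrobDensity.H31
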