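import Fermat.Agent.Lib.FrobDensity.H31_Count
import Fermat.Agent.Lib.FrobDensity.H31_DegOne
import Fermat.Agent.Lib.FrobDensity.H31_Ram

/-!
# Item 61 (Frobenius density): assembly for a Galois number field `L/ℚ`

* `GoodPrime L` : primes of `𝓞 L` not containing `discr L` (they are unramified);
* `frobAt L w` : the arithmetic Frobenius in `Gal(L/ℚ)` at a good prime;
* `wt L w s = f_w * p_w ^ (-s)`;
* `FibreSum L` : the algebraic input (for every `g` the sum of the weights over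
  `{w | frobAt w ∈ ⟨g⟩}` is `orderOf g` times the sum of `N v ^ (-s)` over the good degree-one
  primes of some number field `K` (`= L^⟨g⟩`));
* `infinite_frob_of_fibreSum` : `FibreSum L` implies that for every `g` infinitely many good
  primes `w` have `⟨frobAt w⟩ = ⟨g⟩`;
* `fd_nf_of_fibreSum` : the number field form of Frobenius density (interface of helper97).
-/

set_option linter.unusedSectionVars false
set_option linter.style.haveILetI false

universe u

namespace Fermat.Agent.Lib.FrobDensity.H31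

open NumberField IsDedekindDomain Filter Topology Ideal Fermat.Agent.Lib.ZetaPrimes

section Setup

variable (L : Type u) [Field L] [NumberField L]

/-- The good primes of `L`: those not containing `discr L`. -/
def GoodPrime : Type u :=
  {w : HeightOneSpectrum (𝓞 L) // ((discr L : ℤ) : 𝓞 L) ∉ w.asIdeal}

/-- The residue degree of a prime, read off from its norm. -/
noncomputable def resDeg (w : HeightOneSpectrum (𝓞 L)) : ℕ :=
  Nat.log (ratPrime L w) (absNorm w.asIdeal)

lemma absNorm_eq_ratPrime_pow_resDeg (w : HeightOneSpectrum (𝓞 L)) :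
    absNorm w.asIdeal = ratPrime L w ^ resDeg L w := by
  obtain ⟨f, -, hf⟩ := exists_absNorm_eq_pow L w
  rw [resDeg, hf, Nat.log_pow (ratPrime_prime L w).one_lt]

lemma resDeg_pos (w : HeightOneSpectrum (𝓞 L)) : 0 < resDeg L w := by
  obtain ⟨f, hf1, hf⟩ := exists_absNorm_eq_pow L w
  rw [resDeg, hf, Nat.log_pow (ratPrime_prime L w).one_lt]
  exact hf1

/-- The weight `f_w * p_w ^ (-s)` of a good prime. -/
noncomputable def wt (w : GoodPrime L) (s : ℝ) : ℝ :=
  (resDeg L w.1 : ℝ) * ((ratPrime L w.1 : ℕ) : ℝ) ^ (-s)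

lemma wt_nonneg (w : GoodPrime L) (s : ℝ) : 0 ≤ wt L w s := by
  unfold wt
  positivity

lemma wt_le (w : GoodPrime L) {s : ℝ} (hs : 1 < s) : wt L w s ≤ resDeg L w.1 := by
  unfold wt
  have hp : (1 : ℝ) ≤ ((ratPrime L w.1 : ℕ) : ℝ) := by
    exact_mod_cast (ratPrime_prime L w.1).one_lt.le
  have h1 : ((ratPrime L w.1 : ℕ) : ℝ) ^ (-s) ≤ 1 :=
    Real.rpow_le_one_of_one_le_of_nonpos hp (by linarith)
  have h0 : (0 : ℝ) ≤ (resDeg L w.1 : ℝ) := by positivity
  calc (resDeg L w.1 : ℝ) * ((ratPrime L w.1 : ℕ) : ℝ) ^ (-s)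
      ≤ (resDeg L w.1 : ℝ) * 1 := mul_le_mul_of_nonneg_left h1 h0
    _ = resDeg L w.1 := mul_one _

variable [IsGalois ℚ L]

/-- The Frobenius at a good prime. -/
noncomputable def frobAt (w : GoodPrime L) : L ≃ₐ[ℚ] L :=
  haveI := w.1.isPrime
  haveI : Finite (𝓞 L ⧸ w.1.asIdeal) := Ideal.finiteQuotientOfFreeOfNeBot _ w.1.ne_bot
  arithFrobAt ℤ (L ≃ₐ[ℚ] L) w.1.asIdeal

lemma isArithFrobAt_frobAt (w : GoodPrime L) : IsArithFrobAt ℤ (frobAt L w) w.1.asIdeal := by
  haveI := w.1.isPrime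
  haveI : Finite (𝓞 L ⧸ w.1.asIdeal) := Ideal.finiteQuotientOfFreeOfNeBot _ w.1.ne_bot
  exact IsArithFrobAt.arithFrobAt ℤ (L ≃ₐ[ℚ] L) w.1.asIdeal

lemma inertia_eq_bot_goodPrime (w : GoodPrime L) : w.1.asIdeal.inertia (L ≃ₐ[ℚ] L) = ⊥ := by
  haveI := w.1.isPrime
  exact inertia_eq_bot_of_discr_notMem L w.1.asIdeal w.1.ne_bot w.2

/-- The algebraic input of the density argument: for every `g` the weights of the good primes
with Frobenius in `⟨g⟩` sum to `orderOf g` times the sum of `N v ^ (-s)` over the good degree-one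
primes of a number field `K` (namely `K = L^⟨g⟩`). -/
def FibreSum : Prop :=
  ∀ g : L ≃ₐ[ℚ] L, ∃ (K : Type u) (_ : Field K) (_ : NumberField K)
    (Bad : Set (HeightOneSpectrum (𝓞 K))), Bad.Finite ∧ ∀ s : ℝ, 1 < s →
      HasSum (fun w : {w : GoodPrime L // frobAt L w ∈ Subgroup.zpowers g} ↦ wt L w.1 s)
        ((orderOf g : ℝ) * ∑' v : goodDegOne K Bad, primeTerm K s v)

end Setup

section Main

variable (L : Type u) [Field L] [NumberField L] [IsGalois ℚ L]

lemma summable_wt_of_fibreSum (h : FibreSum L) {s : ℝ} (hs : 1 < s) :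
    Summable (fun w : GoodPrime L ↦ wt L w s) := by
  classical
  haveI : Fintype (L ≃ₐ[ℚ] L) := Fintype.ofFinite _
  -- each piece is summable
  have hpiece : ∀ g : L ≃ₐ[ℚ] L, Summable
      (Set.indicator {w : GoodPrime L | frobAt L w ∈ Subgroup.zpowers g}
        (fun w : GoodPrime L ↦ wt L w s)) := by
    intro g
    obtain ⟨K, _, _, Bad, -, hK⟩ := h g
    have := (hK s hs).summable
    exact summable_subtype_iff_indicator.mp this
  have hsum : Summable (fun w : GoodPrime L ↦ ∑ g : L ≃ₐ[ℚ] L,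
      Set.indicator {w : GoodPrime L | frobAt L w ∈ Subgroup.zpowers g}
        (fun w : GoodPrime L ↦ wt L w s) w) :=
    summable_sum fun g _ ↦ hpiece g
  refine Summable.of_nonneg_of_le (fun w ↦ wt_nonneg L w s) (fun w ↦ ?_) hsum
  have hmem : frobAt L w ∈ Subgroup.zpowers (frobAt L w) := Subgroup.mem_zpowers _
  calc wt L w s
      = Set.indicator {w : GoodPrime L | frobAt L w ∈ Subgroup.zpowers (frobAt L w)}
          (fun w' : GoodPrime L ↦ wt L w' s) w := by
        rw [Set.indicator_of_mem]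
        exact hmem
    _ ≤ _ := by
        refine Finset.single_le_sum (f := fun g : L ≃ₐ[ℚ] L ↦
          Set.indicator {w : GoodPrime L | frobAt L w ∈ Subgroup.zpowers g}
            (fun w : GoodPrime L ↦ wt L w s) w) (fun g _ ↦ ?_) (Finset.mem_univ (frobAt L w))
        exact Set.indicator_nonneg (fun w' _ ↦ wt_nonneg L w' s) w

/-- **Frobenius density, counting form.** Given the algebraic input `FibreSum L`, for every
`g ∈ Gal(L/ℚ)` infinitely many good primes `w` of `L` have `⟨Frob_w⟩ = ⟨g⟩`. -/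
theorem infinite_frob_of_fibreSum (h : FibreSum L) (g : L ≃ₐ[ℚ] L) :
    {w : GoodPrime L | Subgroup.zpowers (frobAt L w) = Subgroup.zpowers g}.Infinite := by
  refine stmt_Count (frobAt L) (wt L) (wt_nonneg L) (fun s hs ↦ summable_wt_of_fibreSum L h hs)
    (fun w ↦ ⟨resDeg L w.1 + 1, by positivity, fun s hs _ ↦ ?_⟩) (fun x ↦ ?_) g
  · have := wt_le L w hs
    linarith
  · obtain ⟨K, _, _, Bad, hBad, hK⟩ := h x
    obtain ⟨B, hB⟩ := exists_bound_goodDegOne K hBad
    refine ⟨(orderOf x : ℝ) * B, ?_⟩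
    have hgt : ∀ᶠ s in 𝓝[>] (1 : ℝ), (1 : ℝ) < s := self_mem_nhdsWithin
    filter_upwards [hB, hgt] with s hs1 hs
    rw [(hK s hs).tsum_eq, ← mul_sub, abs_mul, abs_of_nonneg (by positivity : (0:ℝ) ≤ orderOf x)]
    exact mul_le_mul_of_nonneg_left hs1 (by positivity)

/-- Only finitely many good primes lie over the primes of a finite set `S`. -/
lemma finite_ratPrime_mem (S : Finset ℕ) :
    {w : GoodPrime L | ratPrime L w.1 ∈ S}.Finite := by
  classical
  set d : ℤ := ∏ ℓ ∈ S.filter Nat.Prime, (ℓ : ℤ) with hd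
  have hd0 : d ≠ 0 := by
    rw [hd, Finset.prod_ne_zero_iff]
    intro ℓ hℓ
    have := (Finset.mem_filter.mp hℓ).2.ne_zero
    exact_mod_cast this
  have hfin := finite_setOf_intCast_mem L hd0
  have hinj : Function.Injective (Subtype.val : GoodPrime L → HeightOneSpectrum (𝓞 L)) :=
    Subtype.val_injective
  refine Set.Finite.of_finite_image (f := Subtype.val) (hfin.subset ?_) hinj.injOn
  rintro _ ⟨w, hw, rfl⟩
  simp only [Set.mem_ofPred_eq] at hw ⊢
  have hmem : ratPrime L w.1 ∈ S.filter Nat.Prime :=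
    Finset.mem_filter.mpr ⟨hw, ratPrime_prime L w.1⟩
  have hdvd : ((ratPrime L w.1 : ℕ) : ℤ) ∣ d := Finset.dvd_prod_of_mem (fun ℓ : ℕ ↦ (ℓ : ℤ)) hmem
  obtain ⟨c, hc⟩ := hdvd
  rw [hc]
  push_cast
  exact Ideal.mul_mem_right _ _ (ratPrime_mem L w.1)

/-- **Frobenius density, number field form** (shape of helper97's `Stmt_FD_NF`), from the
algebraic input `FibreSum L`. -/
theorem fd_nf_of_fibreSum (h : FibreSum L) (g : L ≃ₐ[ℚ] L) (S : Finset ℕ) :
    ∃ (Q : Ideal (𝓞 L)) (φ : L ≃ₐ[ℚ] L) (ℓ : ℕ), Q.IsPrime ∧ ℓ.Prime ∧ ℓ ∉ S ∧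
      ((ℓ : ℕ) : 𝓞 L) ∈ Q ∧ Q.inertia (L ≃ₐ[ℚ] L) = ⊥ ∧ IsArithFrobAt ℤ φ Q ∧
      Subgroup.zpowers φ = Subgroup.zpowers g := by
  have hinf := infinite_frob_of_fibreSum L h g
  have hfin := finite_ratPrime_mem L S
  obtain ⟨w, hw, hwS⟩ := (hinf.sdiff hfin).nonempty
  refine ⟨w.1.asIdeal, frobAt L w, ratPrime L w.1, w.1.isPrime, ratPrime_prime L w.1, hwS,
    ratPrime_mem L w.1, inertia_eq_bot_goodPrime L w, isArithFrobAt_frobAt L w, hw⟩

end Main

end Fermat.Agent.Lib.FrobDensity.H31
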