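import Fermat.Agent.Lib.FrobDensity.Defs
import Fermat.Agent.Lib.FrobDensity.H31_Count
import Fermat.Agent.Lib.FrobDensity.H31_DegOne
import Fermat.Agent.Lib.FrobDensity.H31_Ram

/-!
# Item 61 (Frobenius density): B0 and the final step FD (helper31)

Against the interfaces of `Fermat/Agent/Lib/FrobDensity/Defs.lean`:

* `stmt_RamFinite : Stmt_RamFinite` (B0) and `badSet_finite`;
* `stmt_FD_NF_of_frobSum : Stmt_FrobSum → Stmt_FD_NF` (FD), by the counting lemma `stmt_Count`.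
-/

set_option linter.unusedSectionVars false
set_option linter.style.haveILetI false

namespace Fermat.Agent.Lib.FrobDensity.H31

open NumberField IsDedekindDomain Filter Topology Ideal Fermat.Agent.Lib.ZetaPrimes
open Fermat.Agent.Lib.FrobDensity

/-- **B0**: only finitely many primes of `L` are ramified over `ℚ`. -/
theorem stmt_RamFinite : Stmt_RamFinite := by
  intro L _ _ _
  exact finite_setOf_inertia_ne_bot L

/-- The bad set of an intermediate field is finite. -/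
theorem badSet_finite (L : Type) [Field L] [NumberField L] [IsGalois ℚ L]
    (K : IntermediateField ℚ L) : (badSet L K).Finite := by
  have h := finite_setOf_inertia_ne_bot L
  refine (h.image (underK L K)).subset ?_
  rintro v ⟨w, rfl, hw⟩
  exact ⟨w, hw, rfl⟩

section Summable

variable (K : Type*) [Field K] [NumberField K]

/-- `∑_w p_w ^ (-s)` converges for `s > 1` (at most `[K : ℚ]` primes over each rational prime). -/
theorem summable_ratPrime_rpow {s : ℝ} (hs : 1 < s) :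
    Summable (fun w : HeightOneSpectrum (𝓞 K) ↦ ((ratPrime K w : ℕ) : ℝ) ^ (-s)) := by
  classical
  have hsum2 : Summable (fun m : ℕ ↦ (m : ℝ) ^ (-s)) :=
    Real.summable_nat_rpow.mpr (by linarith)
  have hnn : ∀ m : ℕ, (0 : ℝ) ≤ (m : ℝ) ^ (-s) := fun m ↦ by positivity
  refine summable_of_sum_le (c := Module.finrank ℤ (𝓞 K) * ∑' m : ℕ, (m : ℝ) ^ (-s))
    (fun w ↦ hnn _) (fun B ↦ ?_)
  set g : HeightOneSpectrum (𝓞 K) → ℕ := fun v ↦ ratPrime K v with hg
  calc ∑ v ∈ B, ((g v : ℕ) : ℝ) ^ (-s)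
      = ∑ q ∈ B.image g, ∑ v ∈ B with g v = q, ((g v : ℕ) : ℝ) ^ (-s) :=
        (Finset.sum_fiberwise_of_maps_to (fun v hv ↦ Finset.mem_image_of_mem g hv) _).symm
    _ ≤ ∑ q ∈ B.image g, (Module.finrank ℤ (𝓞 K) : ℝ) * ((q : ℕ) : ℝ) ^ (-s) := by
        refine Finset.sum_le_sum (fun q _ ↦ ?_)
        have hcard : (B.filter (fun v ↦ g v = q)).card ≤ Module.finrank ℤ (𝓞 K) :=
          card_le_of_ratPrime_eq K (B.filter (fun v ↦ g v = q)) q
            (fun v hv ↦ (Finset.mem_filter.mp hv).2)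
        calc ∑ v ∈ B with g v = q, ((g v : ℕ) : ℝ) ^ (-s)
            = ∑ v ∈ B with g v = q, ((q : ℕ) : ℝ) ^ (-s) :=
              Finset.sum_congr rfl (fun v hv ↦ by rw [(Finset.mem_filter.mp hv).2])
          _ = ((B.filter (fun v ↦ g v = q)).card : ℝ) * ((q : ℕ) : ℝ) ^ (-s) := by
              rw [Finset.sum_const, nsmul_eq_mul]
          _ ≤ (Module.finrank ℤ (𝓞 K) : ℝ) * ((q : ℕ) : ℝ) ^ (-s) := by
              refine mul_le_mul_of_nonneg_right (by exact_mod_cast hcard) (hnn q)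
    _ = (Module.finrank ℤ (𝓞 K) : ℝ) * ∑ q ∈ B.image g, ((q : ℕ) : ℝ) ^ (-s) := by
        rw [Finset.mul_sum]
    _ ≤ Module.finrank ℤ (𝓞 K) * ∑' m : ℕ, (m : ℝ) ^ (-s) := by
        refine mul_le_mul_of_nonneg_left ?_ (Nat.cast_nonneg _)
        exact hsum2.sum_le_tsum _ (fun m _ ↦ hnn m)

end Summable

section FD

variable (L : Type) [Field L] [NumberField L] [IsGalois ℚ L]

lemma decompCard_pos (w : HeightOneSpectrum (𝓞 L)) : 0 < decompCard L w := by
  unfold decompCard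
  exact Nat.card_pos

lemma decompCard_le (w : HeightOneSpectrum (𝓞 L)) :
    decompCard L w ≤ Nat.card (L ≃ₐ[ℚ] L) := by
  unfold decompCard
  exact Subgroup.card_le_card_group _

lemma wt_nonneg' (s : ℝ) (w : HeightOneSpectrum (𝓞 L)) : 0 ≤ FrobDensity.wt L s w := by
  unfold FrobDensity.wt
  positivity

lemma ratPrime_rpow_le_one {s : ℝ} (hs : 1 < s) (w : HeightOneSpectrum (𝓞 L)) :
    ((ratPrime L w : ℕ) : ℝ) ^ (-s) ≤ 1 := by
  have hp : (1 : ℝ) ≤ ((ratPrime L w : ℕ) : ℝ) := by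
    exact_mod_cast (ratPrime_prime L w).one_lt.le
  exact Real.rpow_le_one_of_one_le_of_nonpos hp (by linarith)

lemma wt_le_card {s : ℝ} (hs : 1 < s) (w : HeightOneSpectrum (𝓞 L)) :
    FrobDensity.wt L s w ≤ Nat.card (L ≃ₐ[ℚ] L) := by
  unfold FrobDensity.wt
  have h1 := ratPrime_rpow_le_one L hs w
  have h2 : (decompCard L w : ℝ) ≤ Nat.card (L ≃ₐ[ℚ] L) := by
    exact_mod_cast decompCard_le L w
  have h0 : (0 : ℝ) ≤ ((ratPrime L w : ℕ) : ℝ) ^ (-s) := by positivity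
  calc (decompCard L w : ℝ) * ((ratPrime L w : ℕ) : ℝ) ^ (-s)
      ≤ (Nat.card (L ≃ₐ[ℚ] L) : ℝ) * 1 :=
        mul_le_mul h2 h1 h0 (by positivity)
    _ = _ := mul_one _

lemma summable_wt {s : ℝ} (hs : 1 < s) :
    Summable (fun w : HeightOneSpectrum (𝓞 L) ↦ FrobDensity.wt L s w) := by
  refine Summable.of_nonneg_of_le (fun w ↦ wt_nonneg' L s w) (fun w ↦ ?_)
    ((summable_ratPrime_rpow L hs).mul_left (Nat.card (L ≃ₐ[ℚ] L) : ℝ))
  unfold FrobDensity.wt
  have h2 : (decompCard L w : ℝ) ≤ Nat.card (L ≃ₐ[ℚ] L) := by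
    exact_mod_cast decompCard_le L w
  exact mul_le_mul_of_nonneg_right h2 (by positivity)

/-- The unramified primes of `L`. -/
abbrev UPrime : Type := {w : HeightOneSpectrum (𝓞 L) // Unram L w}

/-- The Frobenius at an unramified prime. -/
noncomputable def frobU (w : UPrime L) : L ≃ₐ[ℚ] L :=
  haveI := w.1.isPrime
  haveI : Finite (𝓞 L ⧸ w.1.asIdeal) := Ideal.finiteQuotientOfFreeOfNeBot _ w.1.ne_bot
  arithFrobAt ℤ (L ≃ₐ[ℚ] L) w.1.asIdeal

lemma isArithFrobAt_frobU (w : UPrime L) : IsArithFrobAt ℤ (frobU L w) w.1.asIdeal := by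
  haveI := w.1.isPrime
  haveI : Finite (𝓞 L ⧸ w.1.asIdeal) := Ideal.finiteQuotientOfFreeOfNeBot _ w.1.ne_bot
  exact IsArithFrobAt.arithFrobAt ℤ (L ≃ₐ[ℚ] L) w.1.asIdeal

lemma eq_frobU (w : UPrime L) {σ : L ≃ₐ[ℚ] L} (h : IsArithFrobAt ℤ σ w.1.asIdeal) :
    σ = frobU L w := by
  have h1 := IsArithFrobAt.mul_inv_mem_inertia h (isArithFrobAt_frobU L w)
  have hw : w.1.asIdeal.inertia (L ≃ₐ[ℚ] L) = ⊥ := w.2
  rw [hw, Subgroup.mem_bot] at h1
  exact mul_inv_eq_one.mp h1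

lemma mem_frobSet_iff (H : Subgroup (L ≃ₐ[ℚ] L)) (w : UPrime L) :
    w.1 ∈ frobSet L H ↔ frobU L w ∈ H := by
  constructor
  · rintro ⟨-, σ, hσH, hσ⟩
    rwa [← eq_frobU L w hσ]
  · intro h
    exact ⟨w.2, frobU L w, h, isArithFrobAt_frobU L w⟩

/-- Reindexing: unramified primes with Frobenius in `H` versus `frobSet L H`. -/
noncomputable def frobSetEquiv (H : Subgroup (L ≃ₐ[ℚ] L)) :
    {p : UPrime L // frobU L p ∈ H} ≃ frobSet L H where
  toFun p := ⟨p.1.1, (mem_frobSet_iff L H p.1).mpr p.2⟩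
  invFun w := ⟨⟨w.1, w.2.1⟩, (mem_frobSet_iff L H ⟨w.1, w.2.1⟩).mp w.2⟩
  left_inv _ := rfl
  right_inv _ := rfl

/-- Only finitely many unramified primes lie over the primes of a finite set `S`. -/
lemma finite_ratPrime_mem_UPrime (S : Finset ℕ) :
    {w : UPrime L | ratPrime L w.1 ∈ S}.Finite := by
  classical
  set d : ℤ := ∏ ℓ ∈ S.filter Nat.Prime, (ℓ : ℤ) with hd
  have hd0 : d ≠ 0 := by
    rw [hd, Finset.prod_ne_zero_iff]
    intro ℓ hℓ
    have := (Finset.mem_filter.mp hℓ).2.ne_zero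
    exact_mod_cast this
  have hfin := finite_setOf_intCast_mem L hd0
  have hinj : Function.Injective (Subtype.val : UPrime L → HeightOneSpectrum (𝓞 L)) :=
    Subtype.val_injective
  refine Set.Finite.of_finite_image (f := Subtype.val) (hfin.subset ?_) hinj.injOn
  rintro _ ⟨w, hw, rfl⟩
  simp only [Set.mem_ofPred_eq] at hw ⊢
  have hmem : ratPrime L w.1 ∈ S.filter Nat.Prime :=
    Finset.mem_filter.mpr ⟨hw, ratPrime_prime L w.1⟩
  have hdvd : ((ratPrime L w.1 : ℕ) : ℤ) ∣ d := Finset.dvd_prod_of_mem (fun ℓ : ℕ ↦ (ℓ : ℤ)) hmem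
  obtain ⟨c, hc⟩ := hdvd
  rw [hc]
  push_cast
  exact Ideal.mul_mem_right _ _ (ratPrime_mem L w.1)

/-- For every `g`, infinitely many unramified primes `w` have `⟨Frob_w⟩ = ⟨g⟩`. -/
theorem infinite_frobU_of_frobSum (h : Stmt_FrobSum) (g : L ≃ₐ[ℚ] L) :
    {w : UPrime L | Subgroup.zpowers (frobU L w) = Subgroup.zpowers g}.Infinite := by
  refine stmt_Count (frobU L) (fun w s ↦ FrobDensity.wt L s w.1) (fun w s ↦ wt_nonneg' L s w.1)
    (fun s hs ↦ (summable_wt L hs).subtype _)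
    (fun w ↦ ⟨Nat.card (L ≃ₐ[ℚ] L) + 1, by positivity, fun s hs _ ↦ ?_⟩) (fun x ↦ ?_) g
  · have := wt_le_card L hs w.1
    linarith
  · obtain ⟨B, hB⟩ := h L (Subgroup.zpowers x)
    refine ⟨B, ?_⟩
    filter_upwards [hB] with s hs1
    have he : ∑' p : {p : UPrime L // frobU L p ∈ Subgroup.zpowers x}, FrobDensity.wt L s p.1.1 =
        ∑' w : frobSet L (Subgroup.zpowers x), FrobDensity.wt L s w :=
      (frobSetEquiv L (Subgroup.zpowers x)).tsum_eq
        (fun w : frobSet L (Subgroup.zpowers x) ↦ FrobDensity.wt L s w)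
    rw [he, ← Nat.card_zpowers]
    exact hs1

/-- **FD**: the number field form of Frobenius density follows from `Stmt_FrobSum`. -/
theorem stmt_FD_NF_of_frobSum (h : Stmt_FrobSum) : Stmt_FD_NF := by
  intro L _ _ _ g S
  have hinf := infinite_frobU_of_frobSum L h g
  have hfin := finite_ratPrime_mem_UPrime L S
  obtain ⟨w, hw, hwS⟩ := (hinf.sdiff hfin).nonempty
  exact ⟨w.1.asIdeal, frobU L w, ratPrime L w.1, w.1.isPrime, ratPrime_prime L w.1, hwS,
    ratPrime_mem L w.1, w.2, isArithFrobAt_frobU L w, hw⟩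

end FD

end Fermat.Agent.Lib.FrobDensity.H31
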