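import Fermat.Agent.Lib.FrobDensity.H31_FD

/-!
# Item 61 (Frobenius density): B3, the number field instance of the counting hypothesis (helper31)

`stmt_FrobSum_of : Stmt_Split → Stmt_NormUnder → Stmt_FibreCard → Stmt_FrobSum`, and the
resulting `stmt_FD_NF_of : Stmt_Split → Stmt_NormUnder → Stmt_FibreCard → Stmt_FD_NF`.
-/

set_option linter.unusedSectionVars false
set_option linter.style.haveILetI false

namespace Fermat.Agent.Lib.FrobDensity.H31

open NumberField IsDedekindDomain Filter Topology Ideal Fermat.Agent.Lib.ZetaPrimes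
open Fermat.Agent.Lib.FrobDensity

section

variable (L : Type) [Field L] [NumberField L] [IsGalois ℚ L]

/-- Two primes of `L` over the same rational prime are both unramified or both ramified. -/
lemma unram_of_under_eq {w w' : HeightOneSpectrum (𝓞 L)}
    (h : w'.asIdeal.under ℤ = w.asIdeal.under ℤ) (hw : Unram L w) : Unram L w' := by
  have hG : IsGaloisGroup (L ≃ₐ[ℚ] L) ℤ (𝓞 L) := IsGaloisGroup.of_isFractionRing _ _ _ ℚ L
  haveI := w.isPrime
  haveI := w'.isPrime
  haveI : w'.asIdeal.LiesOver (w.asIdeal.under ℤ) := ⟨h.symm⟩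
  have key := Ideal.card_inertia_eq_ramificationIdxIn (G := L ≃ₐ[ℚ] L) (w.asIdeal.under ℤ)
    w.asIdeal
  have key' := Ideal.card_inertia_eq_ramificationIdxIn (G := L ≃ₐ[ℚ] L) (w.asIdeal.under ℤ)
    w'.asIdeal
  unfold Unram at hw ⊢
  rw [hw, Subgroup.card_bot] at key
  rw [← key] at key'
  exact Subgroup.card_eq_one.mp key'

lemma under_int_underK (K : IntermediateField ℚ L) (w : HeightOneSpectrum (𝓞 L)) :
    (underK L K w).asIdeal.under ℤ = w.asIdeal.under ℤ := by
  change (w.asIdeal.under (𝓞 K)).under ℤ = w.asIdeal.under ℤ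
  exact Ideal.under_under w.asIdeal

/-- If `v` is not bad, every prime of `L` above `v` is unramified. -/
lemma unram_of_underK_notMem_badSet (K : IntermediateField ℚ L) (w : HeightOneSpectrum (𝓞 L))
    (h : underK L K w ∉ badSet L K) : Unram L w := by
  by_contra hw
  exact h ⟨w, rfl, hw⟩

/-- If `w` is unramified, the prime of `K` below it is not bad. -/
lemma underK_notMem_badSet (K : IntermediateField ℚ L) (w : HeightOneSpectrum (𝓞 L))
    (hw : Unram L w) : underK L K w ∉ badSet L K := by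
  rintro ⟨w', hw', hbad⟩
  apply hbad
  refine unram_of_under_eq L ?_ hw
  rw [← under_int_underK L K w', hw', under_int_underK L K w]

end

/-- **B3**: the number field instance of the hypothesis of the counting lemma. -/
theorem stmt_FrobSum_of (hS : Stmt_Split) (hN : Stmt_NormUnder) (hF : Stmt_FibreCard) :
    Stmt_FrobSum := by
  classical
  intro L _ _ _ H
  set K : IntermediateField ℚ L := fixK L H with hK
  have hBad : (badSet L K).Finite := badSet_finite L K
  obtain ⟨B, hB⟩ := exists_bound_goodDegOne K hBad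
  have hHpos : (0 : ℝ) < (Nat.card H : ℝ) := by exact_mod_cast Nat.card_pos
  refine ⟨(Nat.card H : ℝ) * B, ?_⟩
  have hgt : ∀ᶠ s in 𝓝[>] (1 : ℝ), (1 : ℝ) < s := self_mem_nhdsWithin
  filter_upwards [hB, hgt] with s hs1 hs
  -- the map to the good degree-one primes of `K`
  have hπ : ∀ w : frobSet L H, underK L K w.1 ∈ goodDegOne K (badSet L K) := by
    rintro ⟨w, hwU, σ, hσH, hσ⟩
    exact ⟨(hS L H w σ hwU hσ).mp hσH, underK_notMem_badSet L K w hwU⟩
  let π : frobSet L H → goodDegOne K (badSet L K) := fun w ↦ ⟨underK L K w.1, hπ w⟩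
  let c : frobSet L H → ℝ := fun w ↦ (decompCard L w.1 : ℝ) / (Nat.card H : ℝ)
  let u : goodDegOne K (badSet L K) → ℝ := fun v ↦ (Nat.card H : ℝ) * primeTerm K s v.1
  have hu : Summable u := ((summable_primeTerm K s hs).subtype _).mul_left _
  have hc0 : ∀ x, 0 ≤ c x := fun x ↦ by positivity
  have hu0 : ∀ y, 0 ≤ u y := fun y ↦ by
    have : 0 ≤ primeTerm K s y.1 := primeTerm_nonneg K s y.1
    positivity
  have hfib : ∀ y, HasSum (fun x : {x // π x = y} ↦ c x) 1 := by
    rintro ⟨v, hvP, hvB⟩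
    obtain ⟨F, hFmem, hFsum⟩ := hF L H v hvP hvB
    -- every element of `F` is in `frobSet`
    have hFfrob : ∀ w ∈ F, w ∈ frobSet L H := by
      intro w hw
      have hwv : underK L K w = v := (hFmem w).mp hw
      have hwU : Unram L w := unram_of_underK_notMem_badSet L K w (hwv ▸ hvB)
      refine ⟨hwU, frobU L ⟨w, hwU⟩, ?_, isArithFrobAt_frobU L ⟨w, hwU⟩⟩
      rw [hS L H w _ hwU (isArithFrobAt_frobU L ⟨w, hwU⟩), hwv]
      exact hvP
    let e : (F : Set (HeightOneSpectrum (𝓞 L))) ≃ {x : frobSet L H // π x = ⟨v, hvP, hvB⟩} :=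
      { toFun := fun w ↦ ⟨⟨w.1, hFfrob w.1 w.2⟩, Subtype.ext ((hFmem w.1).mp w.2)⟩
        invFun := fun x ↦ ⟨x.1.1, (hFmem x.1.1).mpr (congrArg Subtype.val x.2)⟩
        left_inv := fun _ ↦ rfl
        right_inv := fun _ ↦ rfl }
    have h1 : HasSum (fun w : (F : Set (HeightOneSpectrum (𝓞 L))) ↦
        (decompCard L w.1 : ℝ) / (Nat.card H : ℝ))
        (∑ w ∈ F, (decompCard L w : ℝ) / (Nat.card H : ℝ)) :=
      F.hasSum (fun w ↦ (decompCard L w : ℝ) / (Nat.card H : ℝ))
    have h2 : ∑ w ∈ F, (decompCard L w : ℝ) / (Nat.card H : ℝ) = 1 := by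
      rw [← Finset.sum_div, ← Nat.cast_sum, hFsum]
      exact div_self hHpos.ne'
    rw [h2] at h1
    exact (e.hasSum_iff (f := fun x : {x : frobSet L H // π x = ⟨v, hvP, hvB⟩} ↦ c x.1)).mp h1
  have hmain := tsum_fibres π c u hc0 hu0 hu hfib
  have hterm : ∀ w : frobSet L H, c w * u (π w) = FrobDensity.wt L s w.1 := by
    rintro ⟨w, hwU, σ, hσH, hσ⟩
    have hprime := (hS L H w σ hwU hσ).mp hσH
    have hnorm := hN L K w hprime
    change (decompCard L w : ℝ) / (Nat.card H : ℝ) *
      ((Nat.card H : ℝ) * primeTerm K s (underK L K w)) = FrobDensity.wt L s w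
    unfold FrobDensity.wt primeTerm
    rw [hnorm]
    field_simp
  have hsum : ∑' w : frobSet L H, FrobDensity.wt L s w.1 =
      (Nat.card H : ℝ) * ∑' v : goodDegOne K (badSet L K), primeTerm K s v.1 := by
    rw [← tsum_mul_left, ← hmain.tsum_eq]
    exact tsum_congr (fun w ↦ (hterm w).symm)
  rw [hsum, ← mul_sub, abs_mul, abs_of_pos hHpos]
  exact mul_le_mul_of_nonneg_left hs1 hHpos.le

/-- Item 61, number field form, from the three algebraic inputs. -/
theorem stmt_FD_NF_of (hS : Stmt_Split) (hN : Stmt_NormUnder) (hF : Stmt_FibreCard) :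
    Stmt_FD_NF :=
  stmt_FD_NF_of_frobSum (stmt_FrobSum_of hS hN hF)

end Fermat.Agent.Lib.FrobDensity.H31
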