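import Fermat.Agent.Lib.FrobDensity.H97_Bridge

/-!
# Frobenius density, two-sided division form (helper97)

`Stmt_FD2`: as `Fermat.Agent.R.Stmt_FD`, but with both divisibilities: there are a prime `ℓ ∉ S`,
a valuation subring `A` over `ℓ`, a Frobenius `σ` at `A` and exponents `j`, `i` with
`σ ^ j = g` and `g ^ i = σ` on `L` (so `σ` and `g` generate the same cyclic subgroup of
automorphisms of the normal closure of `L`).

Main result: `stmt_FD2_of_NF : Stmt_FD_NF → Stmt_FD2`.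
-/

set_option autoImplicit false

open NumberField
open scoped Pointwise

noncomputable section

namespace Fermat.Agent.Lib.FrobDensity.H97

attribute [local instance] Fermat.Agent.Lib.FrobIntegers.qbar_isAlgebraic
  Fermat.Agent.Lib.FrobIntegers.qbar_isAlgClosure Fermat.Agent.Lib.FrobIntegers.qbar_isGalois

/-- **Frobenius density, two-sided division form.** -/
def Stmt_FD2 : Prop :=
  ∀ (S : Finset ℕ) (L : IntermediateField ℚ (AlgebraicClosure ℚ)), FiniteDimensional ℚ L →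
    ∀ g : AlgebraicClosure ℚ ≃ₐ[ℚ] AlgebraicClosure ℚ,
      ∃ (ℓ : ℕ) (A : ValuationSubring (AlgebraicClosure ℚ))
        (σ : AlgebraicClosure ℚ ≃ₐ[ℚ] AlgebraicClosure ℚ) (j i : ℕ),
        ℓ.Prime ∧ ℓ ∉ S ∧ A.LiesOverPrime ℓ ∧ A.IsFrobeniusAt σ ℓ ∧
          (∀ x ∈ L, (σ ^ j) x = g x) ∧ (∀ x ∈ L, (g ^ i) x = σ x)

theorem Stmt_FD2.toFD (h : Stmt_FD2) : Fermat.Agent.R.Stmt_FD := by
  intro S L hL g
  obtain ⟨ℓ, A, σ, j, i, h1, h2, h3, h4, h5, -⟩ := h S L hL g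
  exact ⟨ℓ, A, σ, j, h1, h2, h3, h4, h5⟩

section Galois

variable (L : IntermediateField ℚ (AlgebraicClosure ℚ)) [NumberField L] [IsGalois ℚ L]

omit [NumberField L] in
theorem eqOn_of_restrictNormalHom_eq (τ₁ τ₂ : AlgebraicClosure ℚ ≃ₐ[ℚ] AlgebraicClosure ℚ)
    (h : AlgEquiv.restrictNormalHom L τ₁ = AlgEquiv.restrictNormalHom L τ₂)
    (x : AlgebraicClosure ℚ) (hx : x ∈ L) : τ₁ x = τ₂ x := by
  have h3 := AlgEquiv.restrictNormal_commutes τ₁ L ⟨x, hx⟩
  have h4 := AlgEquiv.restrictNormal_commutes τ₂ L ⟨x, hx⟩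
  have h5 : τ₁.restrictNormal L = τ₂.restrictNormal L := h
  rw [h5] at h3
  exact h3.symm.trans h4

/-- **Frobenius density, two-sided valuation subring form, for a finite Galois `L ⊆ ℚ̄`.** -/
theorem stmt_FD2_galois (hNF : Stmt_FD_NF) (S : Finset ℕ)
    (g : AlgebraicClosure ℚ ≃ₐ[ℚ] AlgebraicClosure ℚ) :
    ∃ (ℓ : ℕ) (A : ValuationSubring (AlgebraicClosure ℚ))
      (σ : AlgebraicClosure ℚ ≃ₐ[ℚ] AlgebraicClosure ℚ) (j i : ℕ),
      ℓ.Prime ∧ ℓ ∉ S ∧ A.LiesOverPrime ℓ ∧ A.IsFrobeniusAt σ ℓ ∧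
        (∀ x ∈ L, (σ ^ j) x = g x) ∧ (∀ x ∈ L, (g ^ i) x = σ x) := by
  obtain ⟨Q, φ, ℓ, hQ, hℓ, hℓS, hℓQ, hin, hφ, hzp⟩ := hNF L (AlgEquiv.restrictNormalHom L g) S
  have hQ0 : Q ≠ ⊥ := by
    intro h
    rw [h, Ideal.mem_bot] at hℓQ
    exact hℓ.ne_zero (Nat.cast_eq_zero.mp hℓQ)
  obtain ⟨B, hB⟩ := exists_valuationSubring_center L Q hQ0
  have hBℓ : B.LiesOverPrime ℓ := by
    show (ℓ : AlgebraicClosure ℚ) ∈ B.nonunits
    rw [B.mem_nonunits_iff]
    have := (hB _).mp hℓQ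
    rwa [map_natCast] at this
  obtain ⟨σ, hσ⟩ := Fermat.Agent.Lib.FrobExists.exists_isFrobeniusAt ℓ hℓ B hBℓ
  have hσ' := isArithFrobAt_restrict L Q ℓ hℓ hℓQ B hB σ hσ
  have heq : AlgEquiv.restrictNormalHom L σ = φ := by
    have h1 := IsArithFrobAt.mul_inv_mem_inertia hσ' hφ
    rw [hin, Subgroup.mem_bot] at h1
    exact mul_inv_eq_one.mp h1
  have hmem : AlgEquiv.restrictNormalHom L g ∈ Subgroup.zpowers φ := by
    rw [hzp]
    exact Subgroup.mem_zpowers _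
  have hmem' : φ ∈ Subgroup.zpowers (AlgEquiv.restrictNormalHom L g) := by
    rw [← hzp]
    exact Subgroup.mem_zpowers _
  obtain ⟨j, hj⟩ : ∃ j : ℕ, φ ^ j = AlgEquiv.restrictNormalHom L g := by
    have hfin : IsOfFinOrder φ := isOfFinOrder_of_finite φ
    rw [← hfin.mem_powers_iff_mem_zpowers] at hmem
    exact Submonoid.mem_powers_iff _ _ |>.mp hmem
  obtain ⟨i, hi⟩ : ∃ i : ℕ, (AlgEquiv.restrictNormalHom L g) ^ i = φ := by
    have hfin : IsOfFinOrder (AlgEquiv.restrictNormalHom L g) := isOfFinOrder_of_finite _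
    rw [← hfin.mem_powers_iff_mem_zpowers] at hmem'
    exact Submonoid.mem_powers_iff _ _ |>.mp hmem'
  refine ⟨ℓ, B, σ, j, i, hℓ, hℓS, hBℓ, hσ, fun x hx => ?_, fun x hx => ?_⟩
  · exact eqOn_of_restrictNormalHom_eq L _ _ (by rw [map_pow, heq, hj]) x hx
  · exact eqOn_of_restrictNormalHom_eq L _ _ (by rw [map_pow, hi, heq]) x hx

end Galois

/-- **Frobenius density, two-sided division form**, from the number field form. -/
theorem stmt_FD2_of_NF (hNF : Stmt_FD_NF) : Stmt_FD2 := by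
  intro S L₀ hfd g
  have : FiniteDimensional ℚ L₀ := hfd
  set L : IntermediateField ℚ (AlgebraicClosure ℚ) :=
    IntermediateField.normalClosure ℚ L₀ (AlgebraicClosure ℚ) with hL
  have hfdL : FiniteDimensional ℚ L := inferInstance
  have hnQ : Normal ℚ (AlgebraicClosure ℚ) := IsGalois.to_normal
  have hnorm : Normal ℚ L := normalClosure.normal ℚ L₀ (AlgebraicClosure ℚ)
  have hnf : NumberField L := { to_charZero := inferInstance, to_finiteDimensional := hfdL }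
  have hgal : IsGalois ℚ L := { to_isSeparable := inferInstance, to_normal := hnorm }
  obtain ⟨ℓ, A, σ, j, i, h1, h2, h3, h4, h5, h6⟩ := stmt_FD2_galois L hNF S g
  exact ⟨ℓ, A, σ, j, i, h1, h2, h3, h4, fun x hx => h5 x (L₀.le_normalClosure hx),
    fun x hx => h6 x (L₀.le_normalClosure hx)⟩

end Fermat.Agent.Lib.FrobDensity.H97
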